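import Fermat.Agent.R.Pet.Defs

/-!
# Pet package PE (helper22): the double coset of the Hecke matrices
-/

set_option autoImplicit false

namespace Fermat.Agent.R.Pet.H22

open UpperHalfPlane ModularForm MatrixGroups CongruenceSubgroup
open scoped Modular

/-- The entries of the image in `GL(2, ℝ)` of an element of `SL(2, ℤ)`. -/
lemma coe_GL_apply (γ : SL(2, ℤ)) (i k : Fin 2) :
    ((γ : GL (Fin 2) ℝ) : Matrix (Fin 2) (Fin 2) ℝ) i k =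
      (((γ : Matrix (Fin 2) (Fin 2) ℤ) i k : ℤ) : ℝ) := rfl

/-- An element of `SL(2, ℤ)` from its entries. -/
def mkG0 (a b c d : ℤ) (h : a * d - b * c = 1) : SL(2, ℤ) :=
  ⟨!![a, b; c, d], by rw [Matrix.det_fin_two_of]; exact h⟩

lemma coe_mkG0 (a b c d : ℤ) (h : a * d - b * c = 1) :
    ((mkG0 a b c d h : SL(2, ℤ)) : Matrix (Fin 2) (Fin 2) ℤ) = !![a, b; c, d] := rfl

lemma mkG0_mem (N : ℕ) (a b c d : ℤ) (h : a * d - b * c = 1) (hc : (N : ℤ) ∣ c) :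
    mkG0 a b c d h ∈ Gamma0 N := by
  rw [Gamma0_mem, coe_mkG0]
  simpa [ZMod.intCast_zmod_eq_zero_iff_dvd] using hc

lemma coe_GL_mkG0 (a b c d : ℤ) (h : a * d - b * c = 1) :
    (((mkG0 a b c d h : SL(2, ℤ)) : GL (Fin 2) ℝ) : Matrix (Fin 2) (Fin 2) ℝ) =
      !![(a : ℝ), (b : ℝ); (c : ℝ), (d : ℝ)] := by
  ext i k
  rw [coe_GL_apply, coe_mkG0]
  fin_cases i <;> fin_cases k <;> rfl

lemma coe_GL_T_pow (j : ℕ) :
    ((((ModularGroup.T ^ j : SL(2, ℤ)) : GL (Fin 2) ℝ)) : Matrix (Fin 2) (Fin 2) ℝ)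
      = !![(1 : ℝ), (j : ℝ); 0, 1] := by
  ext i k
  have h := ModularGroup.coe_T_zpow (j : ℤ)
  rw [zpow_natCast] at h
  rw [coe_GL_apply, h]
  fin_cases i <;> fin_cases k <;> simp

theorem stmt_heckeMatrix_eq : Stmt_heckeMatrix_eq := by
  intro ℓ j hℓ
  ext i k
  rw [Units.val_mul, val_heckeMatrix hℓ, val_heckeMatrix hℓ, coe_GL_T_pow]
  fin_cases i <;> fin_cases k <;> simp [Matrix.mul_apply, Fin.sum_univ_two]

theorem stmt_double_coset : Stmt_double_coset := by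
  intro N ℓ hℓ hℓN
  have hℓ0 : ℓ ≠ 0 := hℓ.ne_zero
  have hcop : IsCoprime (ℓ : ℤ) (N : ℤ) := by
    rw [Int.isCoprime_iff_gcd_eq_one]
    exact_mod_cast (Nat.Prime.coprime_iff_not_dvd hℓ).mpr hℓN
  obtain ⟨a', b', hab⟩ := hcop
  have h1 : (ℓ : ℤ) * a' * 1 - (-b') * (N : ℤ) = 1 := by linarith
  have h2 : (ℓ : ℤ) * a' - (b') * (-(N : ℤ)) = 1 := by linarith
  refine ⟨mkG0 (ℓ * a') (-b') N 1 h1, mkG0_mem N _ _ _ _ h1 dvd_rfl,
    mkG0 ℓ b' (-N) a' h2, mkG0_mem N _ _ _ _ h2 (dvd_neg.mpr dvd_rfl), ?_⟩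
  ext i k
  rw [Units.val_mul, Units.val_mul, val_heckeMatrix hℓ0, val_heckeDiagMatrix hℓ0, coe_GL_mkG0,
    coe_GL_mkG0]
  have hab' : (a' : ℝ) * ℓ + b' * N = 1 := by exact_mod_cast hab
  fin_cases i <;> fin_cases k <;>
    simp [Matrix.mul_apply, Fin.sum_univ_two] <;> nlinarith [hab']

end Fermat.Agent.R.Pet.H22
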