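import Fermat.Agent.R.Pet.Defs2
import Fermat.Agent.R.Pet.H22_PE

/-!
# Pet packages CONJ0, CONJINF, COMM0, FD-GAMMA (helper22)
-/

set_option autoImplicit false

namespace Fermat.Agent.R.Pet.H22

open UpperHalfPlane ModularForm MatrixGroups CongruenceSubgroup MeasureTheory
open scoped Modular Pointwise

/-- Entries of an element of `Γ(N)`. -/
lemma gamma_entries {N : ℕ} {γ : SL(2, ℤ)} (hγ : γ ∈ Gamma N) :
    (N : ℤ) ∣ (γ 0 0 - 1) ∧ (N : ℤ) ∣ γ 0 1 ∧ (N : ℤ) ∣ γ 1 0 ∧ (N : ℤ) ∣ (γ 1 1 - 1) := by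
  rw [Gamma_mem] at hγ
  obtain ⟨h00, h01, h10, h11⟩ := hγ
  refine ⟨?_, ?_, ?_, ?_⟩
  · rw [← ZMod.intCast_zmod_eq_zero_iff_dvd]; push_cast; rw [h00]; ring
  · rw [← ZMod.intCast_zmod_eq_zero_iff_dvd]; exact h01
  · rw [← ZMod.intCast_zmod_eq_zero_iff_dvd]; exact h10
  · rw [← ZMod.intCast_zmod_eq_zero_iff_dvd]; push_cast; rw [h11]; ring

lemma mkG0_mem_Gamma (N : ℕ) (a b c d : ℤ) (h : a * d - b * c = 1)
    (ha : (N : ℤ) ∣ a - 1) (hb : (N : ℤ) ∣ b) (hc : (N : ℤ) ∣ c) (hd : (N : ℤ) ∣ d - 1) :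
    mkG0 a b c d h ∈ Gamma N := by
  rw [Gamma_mem, coe_mkG0]
  have ha' : ((a - 1 : ℤ) : ZMod N) = 0 := (ZMod.intCast_zmod_eq_zero_iff_dvd _ _).mpr ha
  have hd' : ((d - 1 : ℤ) : ZMod N) = 0 := (ZMod.intCast_zmod_eq_zero_iff_dvd _ _).mpr hd
  push_cast at ha' hd'
  refine ⟨?_, ?_, ?_, ?_⟩
  · simpa using sub_eq_zero.mp ha'
  · simpa [ZMod.intCast_zmod_eq_zero_iff_dvd] using hb
  · simpa [ZMod.intCast_zmod_eq_zero_iff_dvd] using hc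
  · simpa using sub_eq_zero.mp hd'

lemma coe_GL_eq (γ : SL(2, ℤ)) :
    ((γ : GL (Fin 2) ℝ) : Matrix (Fin 2) (Fin 2) ℝ) =
      !![((γ 0 0 : ℤ) : ℝ), ((γ 0 1 : ℤ) : ℝ); ((γ 1 0 : ℤ) : ℝ), ((γ 1 1 : ℤ) : ℝ)] := by
  ext i k
  rw [coe_GL_apply]
  fin_cases i <;> fin_cases k <;> rfl

theorem stmt_conj0 : Stmt_conj0 := by
  intro N ℓ hℓ γ hγ
  obtain ⟨h00, h01, h10, h11⟩ := gamma_entries hγ
  have hdet : γ 0 0 * γ 1 1 - γ 0 1 * γ 1 0 = 1 := by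
    have := γ.2
    rw [Matrix.det_fin_two] at this
    exact this
  obtain ⟨t, ht⟩ := h01
  have hN : ∀ x : ℤ, ((N * ℓ : ℕ) : ℤ) ∣ x → (N : ℤ) ∣ x := fun x hx =>
    dvd_trans ⟨(ℓ : ℤ), by push_cast; ring⟩ hx
  have hd' : γ 0 0 * γ 1 1 - (N * t) * (ℓ * γ 1 0) = 1 := by
    push_cast at ht
    linear_combination hdet + γ 1 0 * ht
  refine ⟨mkG0 (γ 0 0) (N * t) (ℓ * γ 1 0) (γ 1 1) hd',
    mkG0_mem_Gamma N _ _ _ _ hd' (hN _ h00) (dvd_mul_right _ _)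
      (dvd_mul_of_dvd_right (hN _ h10) _) (hN _ h11), ?_⟩
  ext i k
  rw [Units.val_mul, Units.val_mul, val_heckeMatrix hℓ, coe_GL_mkG0, coe_GL_eq γ]
  have ht' : ((γ 0 1 : ℤ) : ℝ) = N * ℓ * t := by rw [ht]; push_cast; ring
  fin_cases i <;> fin_cases k <;>
    simp [Matrix.mul_apply, Fin.sum_univ_two, ht'] <;> ring

theorem stmt_conjInf : Stmt_conjInf := by
  intro N ℓ hℓ γ hγ
  obtain ⟨h00, h01, h10, h11⟩ := gamma_entries hγ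
  have hdet : γ 0 0 * γ 1 1 - γ 0 1 * γ 1 0 = 1 := by
    have := γ.2
    rw [Matrix.det_fin_two] at this
    exact this
  obtain ⟨t, ht⟩ := h10
  have hN : ∀ x : ℤ, ((N * ℓ : ℕ) : ℤ) ∣ x → (N : ℤ) ∣ x := fun x hx =>
    dvd_trans ⟨(ℓ : ℤ), by push_cast; ring⟩ hx
  have hd' : γ 0 0 * γ 1 1 - (ℓ * γ 0 1) * (N * t) = 1 := by
    push_cast at ht
    linear_combination hdet + γ 0 1 * ht
  refine ⟨mkG0 (γ 0 0) (ℓ * γ 0 1) (N * t) (γ 1 1) hd',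
    mkG0_mem_Gamma N _ _ _ _ hd' (hN _ h00) (dvd_mul_of_dvd_right (hN _ h01) _)
      (dvd_mul_right _ _) (hN _ h11), ?_⟩
  ext i k
  rw [Units.val_mul, Units.val_mul, val_heckeDiagMatrix hℓ, coe_GL_mkG0, coe_GL_eq γ]
  have ht' : ((γ 1 0 : ℤ) : ℝ) = N * ℓ * t := by rw [ht]; push_cast; ring
  fin_cases i <;> fin_cases k <;>
    simp [Matrix.mul_apply, Fin.sum_univ_two, ht'] <;> ring

/-- The rational matrix `[[1, 0], [0, ℓ]]`. -/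
noncomputable def alpha0Q (ℓ : ℕ) (hℓ : ℓ ≠ 0) : GL (Fin 2) ℚ :=
  Matrix.GeneralLinearGroup.mkOfDetNeZero !![(1 : ℚ), 0; 0, (ℓ : ℚ)] (by
    rw [Matrix.det_fin_two_of]
    simpa using hℓ)

lemma alpha0Q_map (ℓ : ℕ) (hℓ : ℓ ≠ 0) :
    (alpha0Q ℓ hℓ).map (Rat.castHom ℝ) = heckeMatrix ℓ 0 := by
  ext i k
  rw [val_heckeMatrix hℓ]
  fin_cases i <;> fin_cases k <;>
    simp [alpha0Q, Matrix.GeneralLinearGroup.map, Matrix.GeneralLinearGroup.mkOfDetNeZero]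

lemma conjAct_smul_eq_map (α : GL (Fin 2) ℝ) (H : Subgroup (GL (Fin 2) ℝ)) :
    ConjAct.toConjAct α • H = H.map (MulAut.conj α).toMonoidHom := by
  ext x
  simp only [Subgroup.mem_map, Subgroup.mem_pointwise_smul_iff_inv_smul_mem]
  constructor
  · intro hx
    refine ⟨_, hx, ?_⟩
    simp [ConjAct.smul_def, mul_assoc]
  · rintro ⟨y, hy, rfl⟩
    simpa [ConjAct.smul_def, mul_assoc] using hy

theorem stmt_comm0 : Stmt_comm0 := by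
  intro M ℓ hM hℓ
  have : NeZero M := ⟨hM⟩
  have h1 : (GamR M).IsArithmetic := by
    unfold GamR
    infer_instance
  have h2 := Subgroup.IsArithmetic.conj (GamR M) (alpha0Q ℓ hℓ)
  rw [alpha0Q_map, conjAct_smul_eq_map] at h2
  exact h2.is_commensurable.trans h1.is_commensurable.symm

lemma neg_one_notMem_Gamma (M : ℕ) (hM : 3 ≤ M) : (-1 : SL(2, ℤ)) ∉ Gamma M := by
  intro h
  obtain ⟨h00, -, -, -⟩ := gamma_entries h
  have h2 : (M : ℤ) ∣ 2 := by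
    have : ((-1 : SL(2, ℤ)) 0 0 : ℤ) = -1 := by simp
    rw [this] at h00
    have := dvd_neg.mpr h00
    simpa using this
  have := Int.le_of_dvd (by norm_num) h2
  omega

theorem stmt_exists_fd_Gamma : Stmt_exists_fd → Stmt_exists_fd_Gamma := by
  intro h M hM
  have : NeZero M := ⟨by omega⟩
  exact h (Gamma M) (neg_one_notMem_Gamma M hM)

end Fermat.Agent.R.Pet.H22
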