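import Fermat.Agent.R.Pet.Defs

/-!
# Pet (cluster R, leaf L3a): packages PD and MEAN (helper98)

* `stmt_subgroup_fd : Stmt_subgroup_fd` (PD): a fundamental domain of a subgroup of finite index
  is the union of the translates of a fundamental domain of the group by coset representatives.
* `stmt_mean_indep`, `stmt_mean_sub`, `stmt_mean_conj` (MEAN).

Reusable forms: `unionTranslates`, `isFundamentalDomain_unionTranslates`,
`measure_unionTranslates`, `setIntegral_unionTranslates`, `isFundamentalDomain_of_equiv`,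
`exists_isFD_of_le`, `mean_indep`, `mean_sub`, `isFD_conj`, `mean_smul_set`, `mean_conj`.
-/

set_option autoImplicit false

namespace Fermat.Agent.R.Pet.H98

open MeasureTheory Set UpperHalfPlane
open scoped Pointwise ENNReal

section Abstract

variable {G : Type*} [Group G] {X : Type*} [MeasurableSpace X] [MulAction G X]

/-- The union of the translates of `F` by the inverses of representatives of `G ⧸ H'`. -/
def unionTranslates (H' : Subgroup G) (F : Set X) : Set X :=
  ⋃ c : G ⧸ H', (Quotient.out c)⁻¹ • F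

theorem out_inv_injective (H' : Subgroup G) {h₁ h₂ : H'} {c₁ c₂ : G ⧸ H'}
    (h : (h₁ : G) * (Quotient.out c₁)⁻¹ = (h₂ : G) * (Quotient.out c₂)⁻¹) :
    h₁ = h₂ ∧ c₁ = c₂ := by
  have hc : c₁ = c₂ := by
    rw [← Quotient.out_eq c₁, ← Quotient.out_eq c₂]
    refine (QuotientGroup.eq (s := H')).2 ?_
    have : (Quotient.out c₁)⁻¹ * Quotient.out c₂ = (h₁ : G)⁻¹ * (h₂ : G) := by
      have h' := congrArg (fun g => (h₁ : G)⁻¹ * g * Quotient.out c₂) h
      simp only [mul_assoc, inv_mul_cancel_left, inv_mul_cancel, mul_one] at h'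
      simpa [mul_assoc] using h'
    rw [this]
    exact H'.mul_mem (H'.inv_mem h₁.2) h₂.2
  subst hc
  exact ⟨Subtype.ext (mul_right_cancel h), rfl⟩

theorem countable_quotient [Countable G] (H' : Subgroup G) : Countable (G ⧸ H') :=
  (QuotientGroup.mk_surjective (s := H')).countable

variable {μ : Measure X}

theorem pairwise_aedisjoint_out_inv_smul (H' : Subgroup G) {F : Set X}
    (hF : IsFundamentalDomain G F μ) :
    Pairwise (Function.onFun (AEDisjoint μ) fun c : G ⧸ H' => (Quotient.out c)⁻¹ • F) := by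
  intro c₁ c₂ hc
  refine hF.aedisjoint ?_
  intro h
  apply hc
  have := out_inv_injective H' (h₁ := 1) (h₂ := 1) (c₁ := c₁) (c₂ := c₂) (by simpa using h)
  exact this.2

variable [Countable G] [MeasurableConstSMul G X] [SMulInvariantMeasure G X μ]

theorem nullMeasurableSet_unionTranslates (H' : Subgroup G) {F : Set X}
    (hF : IsFundamentalDomain G F μ) : NullMeasurableSet (unionTranslates H' F) μ :=
  have := countable_quotient H'
  NullMeasurableSet.iUnion fun _ => hF.nullMeasurableSet_smul _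

theorem isFundamentalDomain_unionTranslates (H' : Subgroup G) {F : Set X}
    (hF : IsFundamentalDomain G F μ) : IsFundamentalDomain H' (unionTranslates H' F) μ := by
  refine ⟨nullMeasurableSet_unionTranslates H' hF, ?_, ?_⟩
  · filter_upwards [hF.ae_covers] with x hx
    obtain ⟨g, hg⟩ := hx
    obtain ⟨h, hh⟩ := QuotientGroup.mk_out_eq_mul H' g
    refine ⟨h⁻¹, ?_⟩
    refine mem_iUnion.2 ⟨(g : G ⧸ H'), ?_⟩
    rw [mem_inv_smul_set_iff, hh]
    show (g * (h : G)) • ((h⁻¹ : H') • x) ∈ F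
    have : (g * (h : G)) • ((h⁻¹ : H') • x) = g • x := by
      show (g * (h : G)) • (((h⁻¹ : H') : G) • x) = g • x
      rw [← mul_smul]
      simp
    rw [this]; exact hg
  · intro h₁ h₂ hne
    show AEDisjoint μ (h₁ • unionTranslates H' F) (h₂ • unionTranslates H' F)
    have e : ∀ h : H', h • unionTranslates H' F
        = ⋃ c : G ⧸ H', ((h : G) * (Quotient.out c)⁻¹) • F := by
      intro h
      show (h : G) • unionTranslates H' F = _
      rw [unionTranslates, smul_set_iUnion]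
      refine iUnion_congr fun c => ?_
      rw [mul_smul]
    rw [e, e]
    have := countable_quotient H'
    refine AEDisjoint.iUnion_left_iff.2 fun c₁ => AEDisjoint.iUnion_right_iff.2 fun c₂ => ?_
    refine hF.aedisjoint ?_
    intro h
    exact hne (out_inv_injective H' h).1

omit [Countable G] in
theorem measure_unionTranslates (H' : Subgroup G) [H'.FiniteIndex] {F : Set X}
    (hF : IsFundamentalDomain G F μ) : μ (unionTranslates H' F) = H'.index * μ F := by
  have : Finite (G ⧸ H') := Subgroup.finite_quotient_of_finiteIndex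
  have : Fintype (G ⧸ H') := Fintype.ofFinite _
  rw [unionTranslates, measure_iUnion₀ (pairwise_aedisjoint_out_inv_smul H' hF)
    (fun c => hF.nullMeasurableSet_smul _), tsum_fintype]
  simp only [measure_smul, Finset.sum_const, Finset.card_univ, nsmul_eq_mul]
  rw [Subgroup.index_eq_card, Nat.card_eq_fintype_card]

theorem setIntegral_unionTranslates {E : Type*} [NormedAddCommGroup E] [NormedSpace ℝ E]
    (H' : Subgroup G) [H'.FiniteIndex] {F : Set X}
    (hF : IsFundamentalDomain G F μ) (Φ : X → E) (hΦ : ∀ (g : G) x, Φ (g • x) = Φ x) :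
    ∫ x in unionTranslates H' F, Φ x ∂μ = H'.index • ∫ x in F, Φ x ∂μ := by
  have : Finite (G ⧸ H') := Subgroup.finite_quotient_of_finiteIndex
  have : Fintype (G ⧸ H') := Fintype.ofFinite _
  have hint : ∀ g : G, IntegrableOn Φ (g • F) μ ↔ IntegrableOn Φ F μ := fun g =>
    (hF.smul g).integrableOn_iff hF hΦ
  by_cases hi : IntegrableOn Φ F μ
  · have hi' : IntegrableOn Φ (unionTranslates H' F) μ := by
      rw [unionTranslates]
      exact integrableOn_finite_iUnion.2 fun c => (hint _).2 hi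
    rw [unionTranslates, integral_iUnion_ae (fun c => hF.nullMeasurableSet_smul _)
      (pairwise_aedisjoint_out_inv_smul H' hF) hi', tsum_fintype]
    have : ∀ c : G ⧸ H', ∫ x in (Quotient.out c)⁻¹ • F, Φ x ∂μ = ∫ x in F, Φ x ∂μ := fun c =>
      (hF.smul _).setIntegral_eq hF hΦ
    simp only [this, Finset.sum_const, Finset.card_univ]
    rw [Subgroup.index_eq_card, Nat.card_eq_fintype_card]
  · have hi' : ¬ IntegrableOn Φ (unionTranslates H' F) μ := by
      intro h
      apply hi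
      have hsub : (Quotient.out ((1 : G) : G ⧸ H'))⁻¹ • F ⊆ unionTranslates H' F :=
        subset_iUnion (fun c : G ⧸ H' => (Quotient.out c)⁻¹ • F) _
      exact (hint _).1 (h.mono_set hsub)
    rw [integral_undef hi, integral_undef hi', smul_zero]

/-- Transfer of a fundamental domain along a bijection of groups compatible with the actions. -/
theorem isFundamentalDomain_of_equiv {H₁ H₂ : Type*} [Group H₁] [Group H₂]
    [MulAction H₁ X] [MulAction H₂ X] {ν : Measure X} {F : Set X}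
    (hF : IsFundamentalDomain H₁ F ν) (e : H₂ ≃ H₁)
    (he : ∀ (g : H₂) (x : X), e g • x = g • x) :
    IsFundamentalDomain H₂ F ν := by
  have := hF.image_of_equiv (Equiv.refl X) (Measure.QuasiMeasurePreserving.id ν) e
    (fun g x => he g x)
  simpa using this

end Abstract

theorem stmt_subgroup_fd : Stmt_subgroup_fd := by
  intro G _ _ X _ _ _ μ _ H' _ F hF
  refine ⟨unionTranslates H' F, isFundamentalDomain_unionTranslates H' hF,
    measure_unionTranslates H' hF, fun Φ hΦ => ?_⟩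
  rw [setIntegral_unionTranslates H' hF Φ hΦ, nsmul_eq_mul]

/-! ## Mean values -/

section Mean

variable {𝒢 𝒢' : Subgroup (GL (Fin 2) ℝ)}

theorem mean_indep [Countable 𝒢] {F F' : Set ℍ} (hF : IsFD 𝒢 F) (hF' : IsFD 𝒢 F')
    (Ψ : ℍ → ℂ) (hΨ : ∀ g ∈ 𝒢, ∀ z, Ψ (g • z) = Ψ z) : mean F' Ψ = mean F Ψ := by
  unfold mean
  rw [hF'.fd.setIntegral_eq hF.fd (fun g z => hΨ g g.2 z), hF'.fd.measure_eq hF.fd]

theorem countable_of_le (hle : 𝒢' ≤ 𝒢) [Countable 𝒢] : Countable 𝒢' :=
  (Subgroup.inclusion_injective hle).countable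

/-- A subgroup of finite index of a group with a fundamental domain of finite volume has one. -/
theorem exists_isFD_of_le [Countable 𝒢] (hle : 𝒢' ≤ 𝒢) (hidx : 𝒢'.relIndex 𝒢 ≠ 0)
    {F : Set ℍ} (hF : IsFD 𝒢 F) :
    ∃ F'' : Set ℍ, IsFD 𝒢' F'' ∧ volume F'' = 𝒢'.relIndex 𝒢 * volume F ∧
      ∀ Ψ : ℍ → ℂ, (∀ g ∈ 𝒢, ∀ z, Ψ (g • z) = Ψ z) →
        ∫ z in F'', Ψ z = (𝒢'.relIndex 𝒢 : ℂ) * ∫ z in F, Ψ z := by
  have : (𝒢'.subgroupOf 𝒢).FiniteIndex := ⟨hidx⟩
  have h1 := isFundamentalDomain_unionTranslates (𝒢'.subgroupOf 𝒢) hF.fd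
  have h2 := measure_unionTranslates (𝒢'.subgroupOf 𝒢) hF.fd
  have h3 : IsFundamentalDomain 𝒢' (unionTranslates (𝒢'.subgroupOf 𝒢) F) (volume : Measure ℍ) :=
    isFundamentalDomain_of_equiv h1 (Subgroup.subgroupOfEquivOfLe hle).symm.toEquiv
      (fun g x => rfl)
  refine ⟨unionTranslates (𝒢'.subgroupOf 𝒢) F, ⟨h3, ?_⟩, h2, fun Ψ hΨ => ?_⟩
  · rw [h2]
    exact ENNReal.mul_lt_top (ENNReal.natCast_lt_top _) hF.fin
  · rw [setIntegral_unionTranslates (𝒢'.subgroupOf 𝒢) hF.fd Ψ (fun g z => hΨ g g.2 z),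
      nsmul_eq_mul]
    rfl

theorem mean_sub [Countable 𝒢] (hle : 𝒢' ≤ 𝒢) (hidx : 𝒢'.relIndex 𝒢 ≠ 0)
    {F F' : Set ℍ} (hF : IsFD 𝒢 F) (hF' : IsFD 𝒢' F')
    (Ψ : ℍ → ℂ) (hΨ : ∀ g ∈ 𝒢, ∀ z, Ψ (g • z) = Ψ z) : mean F' Ψ = mean F Ψ := by
  obtain ⟨F'', hF'', hvol, hint⟩ := exists_isFD_of_le hle hidx hF
  have := countable_of_le hle
  rw [mean_indep hF'' hF' Ψ (fun g hg z => hΨ g (hle hg) z)]
  unfold mean
  rw [hint Ψ hΨ, hvol, ENNReal.toReal_mul, ENNReal.toReal_natCast]
  push_cast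
  rw [mul_div_mul_left _ _ (Nat.cast_ne_zero.2 hidx)]

/-- The conjugate of a subgroup of `GL₂(ℝ)`. -/
abbrev conjSubgroup (α : GL (Fin 2) ℝ) (𝒢 : Subgroup (GL (Fin 2) ℝ)) : Subgroup (GL (Fin 2) ℝ) :=
  𝒢.map (MulAut.conj α).toMonoidHom

theorem isFD_conj {F : Set ℍ} (hF : IsFD 𝒢 F) (α : GL (Fin 2) ℝ) :
    IsFD (conjSubgroup α 𝒢) (α • F) := by
  have hinj : Function.Injective (MulAut.conj α).toMonoidHom := (MulAut.conj α).injective
  refine ⟨?_, ?_⟩
  · have := hF.fd.image_of_equiv (ν := (volume : Measure ℍ)) (MulAction.toPerm α)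
      ((measurePreserving_smul α⁻¹ (volume : Measure ℍ)).quasiMeasurePreserving)
      (𝒢.equivMapOfInjective _ hinj).symm.toEquiv ?_
    · exact this
    · intro g z
      obtain ⟨h, rfl⟩ := (𝒢.equivMapOfInjective _ hinj).surjective g
      simp only [MulEquiv.toEquiv_eq_coe, EquivLike.coe_coe, MulEquiv.symm_apply_apply,
        MulAction.toPerm_apply]
      show α • ((h : GL (Fin 2) ℝ) • z)
        = ((𝒢.equivMapOfInjective _ hinj h : conjSubgroup α 𝒢) : GL (Fin 2) ℝ) • (α • z)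
      rw [Subgroup.coe_equivMapOfInjective_apply]
      simp only [MulEquiv.coe_toMonoidHom, MulAut.conj_apply, ← mul_smul]
      simp
  · rw [measure_smul]; exact hF.fin

theorem mean_smul_set (F : Set ℍ) (α : GL (Fin 2) ℝ) (Ψ : ℍ → ℂ) :
    mean (α • F) Ψ = mean F (fun z => Ψ (α • z)) := by
  unfold mean
  rw [measure_smul, ← Set.image_smul,
    (measurePreserving_smul α (volume : Measure ℍ)).setIntegral_image_emb
      (measurableEmbedding_const_smul α)]

theorem mean_conj [Countable 𝒢] {F : Set ℍ} (hF : IsFD 𝒢 F) (α : GL (Fin 2) ℝ)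
    (hα : Subgroup.Commensurable (conjSubgroup α 𝒢) 𝒢)
    (Ψ : ℍ → ℂ) (hΨ : ∀ g ∈ 𝒢, ∀ z, Ψ (g • z) = Ψ z)
    (hΨ' : ∀ g ∈ 𝒢, ∀ z, Ψ ((α * g * α⁻¹) • z) = Ψ z) :
    mean F (fun z => Ψ (α • z)) = mean F Ψ := by
  have hinj : Function.Injective (MulAut.conj α).toMonoidHom := (MulAut.conj α).injective
  have : Countable (conjSubgroup α 𝒢) :=
    Countable.of_equiv _ (𝒢.equivMapOfInjective _ hinj).toEquiv
  have hΨ'' : ∀ g ∈ conjSubgroup α 𝒢, ∀ z, Ψ (g • z) = Ψ z := by
    rintro g ⟨h, hh, rfl⟩ z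
    exact hΨ' h hh z
  -- a fundamental domain of the intersection
  have hidx1 : (conjSubgroup α 𝒢 ⊓ 𝒢).relIndex 𝒢 ≠ 0 := by
    rw [Subgroup.inf_relIndex_right]; exact hα.1
  have hidx2 : (conjSubgroup α 𝒢 ⊓ 𝒢).relIndex (conjSubgroup α 𝒢) ≠ 0 := by
    rw [Subgroup.inf_relIndex_left]; exact hα.2
  obtain ⟨F'', hF'', -, -⟩ := exists_isFD_of_le inf_le_right hidx1 hF
  rw [← mean_smul_set, ← mean_sub inf_le_right hidx1 hF hF'' Ψ hΨ,
    ← mean_sub inf_le_left hidx2 (isFD_conj hF α) hF'' Ψ hΨ'']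

end Mean

theorem stmt_mean_indep : Stmt_mean_indep := by
  intro 𝒢 h𝒢 F F' hF hF' Ψ hΨ
  have := h𝒢
  exact mean_indep hF hF' Ψ hΨ

theorem stmt_mean_sub : Stmt_mean_sub := by
  intro 𝒢 𝒢' h𝒢 hle hidx F F' hF hF' Ψ hΨ
  have := h𝒢
  exact mean_sub hle hidx hF hF' Ψ hΨ

theorem stmt_mean_conj : Stmt_mean_conj := by
  intro 𝒢 h𝒢 F hF α hα Ψ hΨ hΨ'
  have := h𝒢
  exact mean_conj hF α hα Ψ hΨ hΨ'

end Fermat.Agent.R.Pet.H98
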