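import Fermat.Agent.R.Pet.Defs2
import Fermat.Agent.R.Pet.H98_Mean

/-!
# Pet (helper24): positivity `Stmt_pos`, and the mean value lemmas `Stmt_mean_SL`,
`Stmt_mean_level`.
-/

set_option autoImplicit false

namespace Fermat.Agent.R.Pet.H24

open UpperHalfPlane ModularForm MatrixGroups MeasureTheory CongruenceSubgroup
open scoped Modular Pointwise

/-- POS: a continuous nonnegative invariant function with vanishing integral over a fundamental
domain is identically zero. -/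
theorem stmt_pos (hop : Stmt_open_pos) : Stmt_pos := by
  intro 𝒢 h𝒢 F hF Φ hcont hnn hinv hint h0 z
  have := h𝒢
  have hae : Φ =ᵐ[volume.restrict F] 0 :=
    (setIntegral_eq_zero_iff_of_nonneg_ae (Filter.Eventually.of_forall hnn) hint).1 h0
  set U : Set ℍ := {z | Φ z ≠ 0} with hU
  have hUopen : IsOpen U := isOpen_ne_fun hcont continuous_const
  have hUF : volume (U ∩ F) = 0 := by
    have h1 : volume.restrict F U = 0 := by
      have := hae
      rw [Filter.EventuallyEq, ae_iff] at this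
      exact this
    rwa [Measure.restrict_apply hUopen.measurableSet] at h1
  have hUinv : ∀ g : 𝒢, g • U = U := by
    intro g
    ext x
    rw [Set.mem_smul_set_iff_inv_smul_mem]
    simp only [hU, Set.mem_ofPred_eq]
    have := hinv (g⁻¹ : 𝒢) (g⁻¹).2 x
    rw [show ((g⁻¹ : 𝒢) • x) = ((g⁻¹ : 𝒢) : GL (Fin 2) ℝ) • x from rfl, this]
  have hU0 : volume U = 0 := hF.fd.measure_zero_of_invariant U hUinv hUF
  by_contra hz
  have hpos : 0 < volume U := hop U hUopen ⟨z, hz⟩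
  exact hpos.ne' hU0

/-! ## Mean values and the principal congruence subgroups -/

theorem countable_SL : Countable SL(2, ℤ) := by
  have hinj : Function.Injective (fun g : SL(2, ℤ) => (fun i j => g.1 i j : Fin 2 → Fin 2 → ℤ)) := by
    intro g h hgh
    apply Subtype.ext
    ext i j
    exact congrFun (congrFun hgh i) j
  exact hinj.countable

theorem coe_eq_mapGL (γ : SL(2, ℤ)) :
    (γ : GL (Fin 2) ℝ) = Matrix.SpecialLinearGroup.mapGL ℝ γ := rfl

theorem countable_GamR (M : ℕ) : Countable (GamR M) := by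
  have := countable_SL
  have hsurj : Function.Surjective
      (fun g : Gamma M => (⟨Matrix.SpecialLinearGroup.mapGL ℝ (g : SL(2, ℤ)),
        Subgroup.mem_map_of_mem _ g.2⟩ : GamR M)) := by
    rintro ⟨_, ⟨h, hh, rfl⟩⟩
    exact ⟨⟨h, hh⟩, rfl⟩
  exact hsurj.countable

/-- Conjugation by `γ ∈ SL(2, ℤ)` preserves the image of `Γ(M)`. -/
theorem conj_mem_GamR (M : ℕ) (γ : SL(2, ℤ)) {g : GL (Fin 2) ℝ} (hg : g ∈ GamR M) :
    (γ : GL (Fin 2) ℝ) * g * (γ : GL (Fin 2) ℝ)⁻¹ ∈ GamR M := by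
  obtain ⟨h, hh, rfl⟩ := hg
  refine ⟨γ * h * γ⁻¹, (Gamma_normal M).conj_mem h hh γ, ?_⟩
  rw [coe_eq_mapGL, map_mul, map_mul, map_inv]

theorem conjSubgroup_GamR (M : ℕ) (γ : SL(2, ℤ)) :
    H98.conjSubgroup (γ : GL (Fin 2) ℝ) (GamR M) = GamR M := by
  ext g
  constructor
  · rintro ⟨h, hh, rfl⟩
    exact conj_mem_GamR M γ hh
  · intro hg
    refine ⟨((γ⁻¹ : SL(2, ℤ)) : GL (Fin 2) ℝ) * g * ((γ⁻¹ : SL(2, ℤ)) : GL (Fin 2) ℝ)⁻¹,
      conj_mem_GamR M γ⁻¹ hg, ?_⟩
    rw [coe_eq_mapGL, coe_eq_mapGL, map_inv]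
    simp [mul_assoc]

/-- MEAN-SL. -/
theorem stmt_mean_SL : Stmt_mean_SL := by
  intro M F hF γ Ψ hΨ
  have := countable_GamR M
  refine H98.mean_conj hF (γ : GL (Fin 2) ℝ) ?_ Ψ hΨ ?_
  · rw [conjSubgroup_GamR]
  · intro g hg z
    exact hΨ _ (conj_mem_GamR M γ hg) z

theorem Gamma_le_of_dvd {M M' : ℕ} (h : M ∣ M') : Gamma M' ≤ Gamma M := by
  intro γ hγ
  rw [Gamma_mem] at hγ ⊢
  have key : ∀ (x y : ℤ), ((x : ℤ) : ZMod M') = ((y : ℤ) : ZMod M') →
      ((x : ℤ) : ZMod M) = ((y : ℤ) : ZMod M) := by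
    intro x y hxy
    rw [ZMod.intCast_eq_intCast_iff_dvd_sub] at hxy ⊢
    exact (Int.natCast_dvd_natCast.2 h).trans hxy
  obtain ⟨h1, h2, h3, h4⟩ := hγ
  refine ⟨?_, ?_, ?_, ?_⟩
  · have := key (γ 0 0) 1 (by simpa using h1)
    simpa using this
  · have := key (γ 0 1) 0 (by simpa using h2)
    simpa using this
  · have := key (γ 1 0) 0 (by simpa using h3)
    simpa using this
  · have := key (γ 1 1) 1 (by simpa using h4)
    simpa using this

/-- MEAN-LEVEL. -/
theorem stmt_mean_level : Stmt_mean_level := by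
  intro M M' hM' hdvd F F' hF hF' Ψ hΨ
  have := countable_GamR M
  have : NeZero M' := ⟨hM'⟩
  have hle : GamR M' ≤ GamR M := Subgroup.map_mono (Gamma_le_of_dvd hdvd)
  have hidx : (GamR M').relIndex (GamR M) ≠ 0 := by
    rw [Subgroup.relIndex_map_map_of_injective _ _ Matrix.SpecialLinearGroup.mapGL_injective]
    intro h0
    have h1 := Subgroup.index_eq_zero_of_relIndex_eq_zero h0
    exact (Subgroup.FiniteIndex.index_ne_zero (H := Gamma M')) h1
  exact H98.mean_sub hle hidx hF hF' Ψ hΨ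

end Fermat.Agent.R.Pet.H24
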