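import Fermat.Agent.R.Pet.Defs

/-!
# Pet, step PC (helper58): nonempty open subsets of the upper half plane have positive volume.
-/

set_option autoImplicit false

namespace Fermat.Agent.R.Pet

open UpperHalfPlane MeasureTheory
open scoped NNReal ENNReal

/-- **PC**: nonempty open subsets of `ℍ` have positive invariant volume. -/
theorem stmt_open_pos : Stmt_open_pos := by
  intro U hU hne
  rw [volume_eq_lintegral]
  have hopen : IsOpen ((↑) '' U : Set ℂ) := isOpenEmbedding_coe.isOpenMap U hU
  have hne' : ((↑) '' U : Set ℂ).Nonempty := hne.image _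
  have hpos : 0 < volume ((↑) '' U : Set ℂ) := hopen.measure_pos volume hne'
  have hmeas : Measurable (fun z : ℂ => (((1 / ‖z.im‖₊) ^ 2 : ℝ≥0) : ℝ≥0∞)) := by
    fun_prop
  rw [setLIntegral_pos_iff hmeas]
  refine lt_of_lt_of_le hpos (measure_mono ?_)
  rintro _ ⟨z, hz, rfl⟩
  refine ⟨?_, ⟨z, hz, rfl⟩⟩
  simp only [Function.mem_support, ne_eq, ENNReal.coe_eq_zero]
  simpa using z.im_ne_zero

end Fermat.Agent.R.Pet
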