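import Fermat.Agent.R.Pet.Defs2
import Fermat.Agent.R.Pet.H58_PC

/-!
# Pet, step POS (helper58): a continuous nonnegative invariant function whose integral over a
fundamental domain vanishes is identically zero.
-/

set_option autoImplicit false

namespace Fermat.Agent.R.Pet

open UpperHalfPlane MeasureTheory
open scoped NNReal ENNReal Pointwise

/-- **POS**. -/
theorem stmt_pos : Stmt_pos := by
  intro 𝒢 h𝒢 F hF Φ hcont hnn hinv hint h0
  have := h𝒢
  -- the integrand vanishes a.e. on `F`
  have hae : Φ =ᵐ[volume.restrict F] 0 :=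
    (setIntegral_eq_zero_iff_of_nonneg_ae (Filter.Eventually.of_forall hnn) hint).mp h0
  set Z : Set ℍ := {z | Φ z ≠ 0} with hZ
  have hZopen : IsOpen Z := isOpen_ne_fun hcont continuous_const
  have hZF : volume (Z ∩ F) = 0 := by
    have h1 : volume.restrict F Z = 0 := by
      have := ae_iff.mp hae
      simpa [hZ] using this
    rwa [Measure.restrict_apply hZopen.measurableSet] at h1
  have hZinv : ∀ g : 𝒢, g • Z = Z := by
    intro g
    ext z
    rw [Set.mem_smul_set_iff_inv_smul_mem]
    simp only [hZ, Set.mem_ofPred_eq]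
    have : Φ (g⁻¹ • z) = Φ z := hinv (g⁻¹ : 𝒢) (g⁻¹).2 z
    rw [this]
  have hZ0 : volume Z = 0 := hF.fd.measure_zero_of_invariant Z hZinv hZF
  intro z
  by_contra hz
  have hne : Z.Nonempty := ⟨z, hz⟩
  have := stmt_open_pos Z hZopen hne
  rw [hZ0] at this
  exact lt_irrefl _ this

end Fermat.Agent.R.Pet
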