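import Fermat.Agent.R.Pet.Defs

/-!
# Pet, step PF (helper58): a positive definite biadditive pairing for which the generators are
self-adjoint forces the (anemic) Hecke algebra to be reduced.
-/

set_option autoImplicit false
set_option linter.unusedSectionVars false

namespace Fermat.Agent.R.Pet

open CongruenceSubgroup

section PF

variable {N : ℕ} [NeZero N] {k : ℤ}

/-- Self-adjointness of an endomorphism for a pairing `B`. -/
def IsSA (B : CuspForm (Gamma0 N) k → CuspForm (Gamma0 N) k → ℂ)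
    (t : Module.End ℂ (CuspForm (Gamma0 N) k)) : Prop :=
  ∀ f g, B (t f) g = B f (t g)

variable {B : CuspForm (Gamma0 N) k → CuspForm (Gamma0 N) k → ℂ}

lemma pair_zero_left (h1 : ∀ f f' g, B (f + f') g = B f g + B f' g) (g : CuspForm (Gamma0 N) k) :
    B 0 g = 0 := by
  have h := h1 0 0 g
  rw [add_zero] at h
  exact left_eq_add.mp h

lemma pair_zero_right (h2 : ∀ f g g', B f (g + g') = B f g + B f g')
    (f : CuspForm (Gamma0 N) k) : B f 0 = 0 := by
  have h := h2 f 0 0
  rw [add_zero] at h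
  exact left_eq_add.mp h

lemma pair_neg_left (h1 : ∀ f f' g, B (f + f') g = B f g + B f' g)
    (f g : CuspForm (Gamma0 N) k) : B (-f) g = -B f g := by
  have h := h1 f (-f) g
  rw [add_neg_cancel, pair_zero_left h1] at h
  exact eq_neg_of_add_eq_zero_right h.symm

lemma pair_neg_right (h2 : ∀ f g g', B f (g + g') = B f g + B f g')
    (f g : CuspForm (Gamma0 N) k) : B f (-g) = -B f g := by
  have h := h2 f g (-g)
  rw [add_neg_cancel, pair_zero_right h2] at h
  exact eq_neg_of_add_eq_zero_right h.symm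

lemma pair_nsmul_left (h1 : ∀ f f' g, B (f + f') g = B f g + B f' g) (n : ℕ)
    (f g : CuspForm (Gamma0 N) k) : B (n • f) g = n • B f g := by
  induction n with
  | zero => simp [pair_zero_left h1]
  | succ n ih => rw [succ_nsmul, h1, ih, succ_nsmul]

lemma pair_nsmul_right (h2 : ∀ f g g', B f (g + g') = B f g + B f g') (n : ℕ)
    (f g : CuspForm (Gamma0 N) k) : B f (n • g) = n • B f g := by
  induction n with
  | zero => simp [pair_zero_right h2]
  | succ n ih => rw [succ_nsmul, h2, ih, succ_nsmul]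

lemma pair_zsmul_left (h1 : ∀ f f' g, B (f + f') g = B f g + B f' g) (n : ℤ)
    (f g : CuspForm (Gamma0 N) k) : B (n • f) g = n • B f g := by
  obtain ⟨m, rfl | rfl⟩ := n.eq_nat_or_neg
  · rw [natCast_zsmul, natCast_zsmul, pair_nsmul_left h1]
  · rw [neg_zsmul, neg_zsmul, natCast_zsmul, natCast_zsmul, pair_neg_left h1,
      pair_nsmul_left h1]

lemma pair_zsmul_right (h2 : ∀ f g g', B f (g + g') = B f g + B f g') (n : ℤ)
    (f g : CuspForm (Gamma0 N) k) : B f (n • g) = n • B f g := by
  obtain ⟨m, rfl | rfl⟩ := n.eq_nat_or_neg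
  · rw [natCast_zsmul, natCast_zsmul, pair_nsmul_right h2]
  · rw [neg_zsmul, neg_zsmul, natCast_zsmul, natCast_zsmul, pair_neg_right h2,
      pair_nsmul_right h2]

/-- Every element of the anemic Hecke algebra is self-adjoint. -/
lemma isSA_of_mem (S : Set ℕ) (hS : ∀ q : ℕ, q.Prime → q ∣ N → q ∈ S)
    (h1 : ∀ f f' g, B (f + f') g = B f g + B f' g)
    (h2 : ∀ f g g', B f (g + g') = B f g + B f g')
    (hsa : ∀ (ℓ : ℕ) (hℓ : ℓ.Prime) (hℓN : ¬ ℓ ∣ N) (f g : CuspForm (Gamma0 N) k),
      B (CuspForm.heckeTLin k hℓ hℓN f) g = B f (CuspForm.heckeTLin k hℓ hℓN g))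
    {t : Module.End ℂ (CuspForm (Gamma0 N) k)} (ht : t ∈ CuspForm.heckeAlgebra N k S) :
    IsSA B t := by
  unfold CuspForm.heckeAlgebra at ht
  induction ht using Algebra.adjoin_induction with
  | mem x hx =>
    rcases hx with ⟨ℓ, hℓ, hℓN, -, rfl⟩ | ⟨q, hqN, hq, hqS, rfl⟩
    · exact hsa ℓ hℓ hℓN
    · exact absurd (hS q hq hqN) hqS
  | algebraMap r =>
    intro f g
    have e : ∀ f : CuspForm (Gamma0 N) k,
        (algebraMap ℤ (Module.End ℂ (CuspForm (Gamma0 N) k)) r) f = r • f := by
      intro f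
      rw [Algebra.algebraMap_eq_smul_one, LinearMap.smul_apply, Module.End.one_apply]
    rw [e, e, pair_zsmul_left h1, pair_zsmul_right h2]
  | add x y hx hy ihx ihy =>
    intro f g
    rw [LinearMap.add_apply, LinearMap.add_apply, h1, h2, ihx f g, ihy f g]
  | mul x y hx hy ihx ihy =>
    intro f g
    have hc : x * y = y * x := by
      have := mul_comm (⟨x, hx⟩ : CuspForm.heckeAlgebra N k S) ⟨y, hy⟩
      exact congrArg Subtype.val this
    rw [Module.End.mul_apply, ihx, ihy, ← Module.End.mul_apply, ← hc]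

end PF

/-- **PF**: the pure algebra step of L3a. -/
theorem reduced_of_pet : Stmt_reduced_of_pet := by
  intro N _ k S hS hpet
  obtain ⟨B, h1, h2, hpos, hsa⟩ := hpet
  rw [isReduced_iff_pow_one_lt 2 one_lt_two]
  intro x hx
  have hSA : IsSA B x.1 := isSA_of_mem S hS h1 h2 hsa x.2
  have hx2 : x.1 * x.1 = 0 := by
    have := congrArg Subtype.val hx
    simpa [pow_two] using this
  apply Subtype.ext
  apply LinearMap.ext
  intro f
  apply hpos
  rw [hSA, ← Module.End.mul_apply, hx2]
  exact pair_zero_right h2 f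

end Fermat.Agent.R.Pet
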