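import Mathlib.NumberTheory.ModularForms.Petersson
import Mathlib.NumberTheory.ModularForms.Bounds
import Mathlib.NumberTheory.Modular
import Mathlib.Analysis.Complex.UpperHalfPlane.Measure
import Mathlib.MeasureTheory.Group.FundamentalDomain
import Fermat.Prelude.Def_CuspForm_HeckeAlgebra

/-!
# Cluster R, leaf L3a (helper58): the Petersson inner product and reducedness of the anemic
Hecke algebra. Interfaces (`Stmt_*` are the work packages).

Notation: `𝒟 = ModularGroup.fd`, `𝒟ᵒ = ModularGroup.fdo`, `volume` on `ℍ` is the invariant measure.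
-/

set_option autoImplicit false

namespace Fermat.Agent.R.Pet

open UpperHalfPlane ModularForm MatrixGroups MeasureTheory CongruenceSubgroup
open scoped Modular Pointwise

/-! ## Measure theory of the standard fundamental domain -/

/-- PA: the boundary of the standard fundamental domain is a null set. -/
def Stmt_fd_boundary_null : Prop :=
  volume ((𝒟 : Set ℍ) \ 𝒟ᵒ) = 0

/-- PB: the standard fundamental domain has finite invariant volume. -/
def Stmt_fd_volume_lt_top : Prop :=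
  volume (𝒟 : Set ℍ) < ⊤

/-- PC: nonempty open subsets of `ℍ` have positive invariant volume. -/
def Stmt_open_pos : Prop :=
  ∀ U : Set ℍ, IsOpen U → U.Nonempty → 0 < volume U

/-! ## Fundamental domains of subgroups of finite index (abstract) -/

/-- PD: a subgroup `H'` of finite index `d` of a countable group `H` acting on a measure space:
from a fundamental domain `F` of `H` one gets a fundamental domain `F'` of `H'` with
`μ F' = d * μ F` and `∫_{F'} Φ = d • ∫_F Φ` for every `H`-invariant `Φ`. -/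
def Stmt_subgroup_fd : Prop :=
  ∀ (G : Type) [Group G] [Countable G] (X : Type) [MeasurableSpace X] [MulAction G X]
    [MeasurableConstSMul G X] (μ : Measure X) [SMulInvariantMeasure G X μ]
    (H' : Subgroup G) [H'.FiniteIndex] (F : Set X), IsFundamentalDomain G F μ →
    ∃ F' : Set X, IsFundamentalDomain H' F' μ ∧ μ F' = H'.index * μ F ∧
      ∀ Φ : X → ℂ, (∀ (g : G) x, Φ (g • x) = Φ x) →
        ∫ x in F', Φ x ∂μ = (H'.index : ℂ) * ∫ x in F, Φ x ∂μ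

/-! ## Fundamental domains of finite volume and mean values -/

/-- `F` is a fundamental domain of finite volume for the subgroup `𝒢 ≤ GL₂(ℝ)` acting on `ℍ`. -/
structure IsFD (𝒢 : Subgroup (GL (Fin 2) ℝ)) (F : Set ℍ) : Prop where
  fd : IsFundamentalDomain 𝒢 F (volume : Measure ℍ)
  fin : volume F < ⊤

/-- The mean value of `Φ` over `F`. -/
noncomputable def mean (F : Set ℍ) (Φ : ℍ → ℂ) : ℂ :=
  (∫ z in F, Φ z) / (((volume F).toReal : ℝ) : ℂ)

/-- FD1: a subgroup of finite index of `SL(2, ℤ)` not containing `-1` has a fundamental domain of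
finite volume (a finite union of translates of `𝒟`). -/
def Stmt_exists_fd : Prop :=
  ∀ (Γ : Subgroup SL(2, ℤ)) [Γ.FiniteIndex], (-1 : SL(2, ℤ)) ∉ Γ →
    ∃ F : Set ℍ, IsFD (Γ.map (Matrix.SpecialLinearGroup.mapGL ℝ)) F

/-- MEAN-FD: the mean value does not depend on the fundamental domain. -/
def Stmt_mean_indep : Prop :=
  ∀ (𝒢 : Subgroup (GL (Fin 2) ℝ)), Countable 𝒢 → ∀ (F F' : Set ℍ), IsFD 𝒢 F → IsFD 𝒢 F' →
    ∀ Ψ : ℍ → ℂ, (∀ g ∈ 𝒢, ∀ z, Ψ (g • z) = Ψ z) → mean F' Ψ = mean F Ψ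

/-- MEAN-SUB: the mean value of a `𝒢`-invariant function may be computed on a fundamental
domain of a subgroup of finite index. -/
def Stmt_mean_sub : Prop :=
  ∀ (𝒢 𝒢' : Subgroup (GL (Fin 2) ℝ)), Countable 𝒢 → 𝒢' ≤ 𝒢 → 𝒢'.relIndex 𝒢 ≠ 0 →
    ∀ (F F' : Set ℍ), IsFD 𝒢 F → IsFD 𝒢' F' →
    ∀ Ψ : ℍ → ℂ, (∀ g ∈ 𝒢, ∀ z, Ψ (g • z) = Ψ z) → mean F' Ψ = mean F Ψ

/-- MEAN-CONJ: the mean value is invariant under `α ∈ GL₂(ℝ)` commensurating `𝒢`. -/
def Stmt_mean_conj : Prop :=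
  ∀ (𝒢 : Subgroup (GL (Fin 2) ℝ)), Countable 𝒢 → ∀ (F : Set ℍ), IsFD 𝒢 F →
    ∀ α : GL (Fin 2) ℝ, Subgroup.Commensurable (𝒢.map (MulAut.conj α).toMonoidHom) 𝒢 →
    ∀ Ψ : ℍ → ℂ, (∀ g ∈ 𝒢, ∀ z, Ψ (g • z) = Ψ z) →
      (∀ g ∈ 𝒢, ∀ z, Ψ ((α * g * α⁻¹) • z) = Ψ z) →
      mean F (fun z => Ψ (α • z)) = mean F Ψ

/-! ## The double coset of the Hecke matrices -/

/-- PE: for `ℓ ∤ N` the diagonal Hecke matrix lies in `Γ₀(N) α₀ Γ₀(N)`, `α₀ = heckeMatrix ℓ 0`. -/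
def Stmt_double_coset : Prop :=
  ∀ (N ℓ : ℕ), ℓ.Prime → ¬ ℓ ∣ N → ∃ γ ∈ Gamma0 N, ∃ γ' ∈ Gamma0 N,
    heckeDiagMatrix ℓ = (γ : GL (Fin 2) ℝ) * heckeMatrix ℓ 0 * (γ' : GL (Fin 2) ℝ)

/-- PE': the other Hecke matrices are right translates of `α₀` by powers of `T`. -/
def Stmt_heckeMatrix_eq : Prop :=
  ∀ (ℓ j : ℕ), ℓ ≠ 0 →
    heckeMatrix ℓ j = heckeMatrix ℓ 0 * ((ModularGroup.T ^ j : SL(2, ℤ)) : GL (Fin 2) ℝ)

/-! ## The inner product -/

/-- The statement that a positive definite, biadditive pairing exists on `S_k(Γ₀(N))` for which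
all `T_ℓ`, `ℓ ∤ N`, are self-adjoint. -/
def Stmt_pet (N : ℕ) [NeZero N] (k : ℤ) : Prop :=
  ∃ B : CuspForm (Gamma0 N) k → CuspForm (Gamma0 N) k → ℂ,
    (∀ f f' g, B (f + f') g = B f g + B f' g) ∧
    (∀ f g g', B f (g + g') = B f g + B f g') ∧
    (∀ f, B f f = 0 → f = 0) ∧
    ∀ (ℓ : ℕ) (hℓ : ℓ.Prime) (hℓN : ¬ ℓ ∣ N) (f g : CuspForm (Gamma0 N) k),
      B (CuspForm.heckeTLin k hℓ hℓN f) g = B f (CuspForm.heckeTLin k hℓ hℓN g)

/-- PF: the pure algebra step. -/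
def Stmt_reduced_of_pet : Prop :=
  ∀ (N : ℕ) [NeZero N] (k : ℤ) (S : Set ℕ), (∀ q : ℕ, q.Prime → q ∣ N → q ∈ S) →
    Stmt_pet N k → IsReduced (CuspForm.heckeAlgebra N k S)

/-- The goal of L3a. -/
def Stmt_L3a : Prop :=
  ∀ (N : ℕ) [NeZero N] (k : ℤ) (S : Set ℕ), (∀ q : ℕ, q.Prime → q ∣ N → q ∈ S) →
    IsReduced (CuspForm.heckeAlgebra N k S)

end Fermat.Agent.R.Pet
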