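import Mathlib
import Fermat.Agent.R.Pet.Defs

/-!
# Measure core for the Petersson inner product (cluster R, leaf L3a, mini-project Pet)

Hyperbolic measure on `ℍ` (Mathlib `UpperHalfPlane.instMeasureSpace`) and the standard
fundamental domain `𝒟` of `SL(2,ℤ)`:

* `measurableConstSMul_SL`, `smulInvariantMeasure_SL` : the action of `SL(2,ℤ)` is measurable
  and measure preserving;
* `fd_boundary_null : Stmt_fd_boundary_null` (PA) : the boundary `𝒟 \ 𝒟ᵒ` is a null set;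
* `fd_volume_lt_top : Stmt_fd_volume_lt_top` (PB) : `𝒟` has finite hyperbolic volume;
* `open_pos : Stmt_open_pos` (PC) : nonempty open sets have positive volume;
* `volume_smul_fd_inter_fd` : `g • 𝒟 ∩ 𝒟` is a null set for `g ≠ ±1`;
* `iUnion_smul_fd` : the translates of `𝒟` cover `ℍ`.
-/

open MeasureTheory UpperHalfPlane ModularGroup Set
open scoped Modular MatrixGroups ENNReal NNReal Pointwise

namespace Fermat.Agent.R.Pet.H78

/-- The action of `SL(2,ℤ)` on `ℍ` is by measurable maps. -/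
theorem measurableConstSMul_SL : MeasurableConstSMul SL(2, ℤ) ℍ :=
  ⟨fun g => measurable_const_smul (Matrix.SpecialLinearGroup.mapGL ℝ g)⟩

/-- The hyperbolic measure on `ℍ` is invariant under `SL(2,ℤ)`. -/
theorem smulInvariantMeasure_SL : SMulInvariantMeasure SL(2, ℤ) ℍ volume :=
  ⟨fun g s _ => measure_preimage_smul (μ := (volume : Measure ℍ))
    (Matrix.SpecialLinearGroup.mapGL ℝ g) s⟩

attribute [local instance] measurableConstSMul_SL smulInvariantMeasure_SL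

theorem measurableSet_fd : MeasurableSet (𝒟 : Set ℍ) := isClosed_fd.measurableSet

theorem measurableSet_fdo : MeasurableSet (𝒟ᵒ : Set ℍ) := isOpen_fdo.measurableSet

/-- A subset of `ℍ` whose image in `ℂ` is Lebesgue-null is null for the hyperbolic measure. -/
theorem volume_eq_zero_of_coe_image {s : Set ℍ}
    (h : (volume : Measure ℂ) (UpperHalfPlane.coe '' s) = 0) : (volume : Measure ℍ) s = 0 := by
  rw [volume_eq_lintegral]
  exact setLIntegral_measure_zero _ _ h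

theorem volume_re_eq (c : ℝ) : (volume : Measure ℂ) {z : ℂ | z.re = c} = 0 := by
  have h1 : {z : ℂ | z.re = c} = Complex.measurableEquivRealProd ⁻¹' ({c} ×ˢ (univ : Set ℝ)) := by
    ext z
    simp [Complex.measurableEquivRealProd]
  rw [h1, Complex.volume_preserving_equiv_real_prod.measure_preimage
    ((measurableSet_singleton c).prod MeasurableSet.univ).nullMeasurableSet]
  rw [Measure.volume_eq_prod, Measure.prod_prod]
  simp

/-- The boundary of the standard fundamental domain is a null set. -/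
theorem volume_fd_diff_fdo : (volume : Measure ℍ) (𝒟 \ 𝒟ᵒ) = 0 := by
  apply volume_eq_zero_of_coe_image
  have hsub : UpperHalfPlane.coe '' (𝒟 \ 𝒟ᵒ) ⊆
      Metric.sphere (0 : ℂ) 1 ∪ ({z : ℂ | z.re = 1 / 2} ∪ {z : ℂ | z.re = -(1 / 2)}) := by
    rintro _ ⟨z, ⟨hz, hz'⟩, rfl⟩
    simp only [fd, fdo, Set.mem_ofPred_eq, not_and_or, not_lt] at hz hz'
    rcases hz' with h | h
    · left
      have h1 : Complex.normSq (z : ℂ) = 1 := le_antisymm h hz.1
      rw [mem_sphere_zero_iff_norm]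
      have := Complex.normSq_eq_norm_sq (z : ℂ)
      rw [h1] at this
      have hn : 0 ≤ ‖(z : ℂ)‖ := norm_nonneg _
      nlinarith
    · right
      have h1 : |z.re| = 1 / 2 := le_antisymm hz.2 h
      rcases abs_cases z.re with ⟨h2, _⟩ | ⟨h2, _⟩
      · left
        show (z : ℂ).re = 1 / 2
        rw [← h1, h2]; rfl
      · right
        show (z : ℂ).re = -(1 / 2)
        rw [← h1, h2]; simp
  refine measure_mono_null hsub ?_
  rw [measure_union_null_iff, measure_union_null_iff]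
  exact ⟨Measure.addHaar_sphere _ _ _, volume_re_eq _, volume_re_eq _⟩

/-- PA. -/
theorem fd_boundary_null : Stmt_fd_boundary_null := volume_fd_diff_fdo

/-- auxiliary: `∫ y^{-2}` over `[1/2, ∞)` is finite. -/
theorem lintegral_Ici_inv_sq_lt_top :
    ∫⁻ y in Ici (1 / 2 : ℝ), (((1 / ‖y‖₊) ^ 2 : ℝ≥0) : ℝ≥0∞) < ⊤ := by
  have hint : IntegrableOn (fun t : ℝ => t ^ (-2 : ℝ)) (Ioi (1 / 4 : ℝ)) :=
    integrableOn_Ioi_rpow_of_lt (by norm_num) (by norm_num)
  have h1 : ∫⁻ y in Ici (1 / 2 : ℝ), (((1 / ‖y‖₊) ^ 2 : ℝ≥0) : ℝ≥0∞)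
      ≤ ∫⁻ y in Ioi (1 / 4 : ℝ), (((1 / ‖y‖₊) ^ 2 : ℝ≥0) : ℝ≥0∞) :=
    lintegral_mono_set (fun y hy => lt_of_lt_of_le (by norm_num) (mem_Ici.1 hy))
  refine lt_of_le_of_lt h1 ?_
  have h2 : ∫⁻ y in Ioi (1 / 4 : ℝ), (((1 / ‖y‖₊) ^ 2 : ℝ≥0) : ℝ≥0∞)
      = ∫⁻ y in Ioi (1 / 4 : ℝ), ‖y ^ (-2 : ℝ)‖ₑ := by
    refine setLIntegral_congr_fun measurableSet_Ioi fun y hy => ?_
    have hy0 : (0 : ℝ) < y := lt_trans (by norm_num) (mem_Ioi.1 hy)
    rw [enorm_eq_nnnorm]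
    congr 1
    ext
    simp only [one_div, NNReal.coe_pow, NNReal.coe_inv, coe_nnnorm, Real.norm_eq_abs]
    rw [abs_of_pos hy0, abs_of_pos (Real.rpow_pos_of_pos hy0 _), Real.rpow_neg hy0.le,
      show (2 : ℝ) = ((2 : ℕ) : ℝ) by norm_num, Real.rpow_natCast, inv_pow]
  rw [h2]
  exact hint.hasFiniteIntegral

theorem coe_fd_subset : UpperHalfPlane.coe '' (𝒟 : Set ℍ) ⊆
    Complex.measurableEquivRealProd ⁻¹' (Icc (-(1 / 2) : ℝ) (1 / 2) ×ˢ Ici (1 / 2 : ℝ)) := by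
  rintro _ ⟨z, hz, rfl⟩
  have h3 := three_le_four_mul_im_sq_of_mem_fd hz
  have him : 0 < z.im := z.im_pos
  refine ⟨abs_le.1 hz.2, ?_⟩
  show (1 / 2 : ℝ) ≤ z.im
  nlinarith

/-- The standard fundamental domain has finite hyperbolic volume. -/
theorem volume_fd_lt_top : (volume : Measure ℍ) (𝒟 : Set ℍ) < ⊤ := by
  rw [volume_eq_lintegral]
  refine lt_of_le_of_lt (lintegral_mono_set coe_fd_subset) ?_
  have hmp := Complex.volume_preserving_equiv_real_prod
  have key : ∫⁻ z in Complex.measurableEquivRealProd ⁻¹'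
        (Icc (-(1 / 2) : ℝ) (1 / 2) ×ˢ Ici (1 / 2 : ℝ)), (((1 / ‖z.im‖₊) ^ 2 : ℝ≥0) : ℝ≥0∞)
      = ∫⁻ p in Icc (-(1 / 2) : ℝ) (1 / 2) ×ˢ Ici (1 / 2 : ℝ),
          (((1 / ‖p.2‖₊) ^ 2 : ℝ≥0) : ℝ≥0∞) := by
    rw [← hmp.setLIntegral_comp_preimage_emb Complex.measurableEquivRealProd.measurableEmbedding]
    rfl
  rw [key, Measure.volume_eq_prod, ← Measure.prod_restrict]
  have h3 := lintegral_prod_mul (μ := (volume : Measure ℝ).restrict (Icc (-(1 / 2) : ℝ) (1 / 2)))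
    (ν := (volume : Measure ℝ).restrict (Ici (1 / 2 : ℝ))) (f := fun _ => (1 : ℝ≥0∞))
    (g := fun y : ℝ => (((1 / ‖y‖₊) ^ 2 : ℝ≥0) : ℝ≥0∞)) (by fun_prop) (by fun_prop)
  simp only [one_mul] at h3
  rw [h3]
  refine ENNReal.mul_lt_top ?_ lintegral_Ici_inv_sq_lt_top
  simp

/-- PB. -/
theorem fd_volume_lt_top : Stmt_fd_volume_lt_top := volume_fd_lt_top

/-- Nonempty open subsets of `ℍ` have positive hyperbolic volume. -/
theorem volume_pos_of_isOpen {U : Set ℍ} (hU : IsOpen U) (hne : U.Nonempty) :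
    0 < (volume : Measure ℍ) U := by
  rw [volume_eq_lintegral]
  have hopen : IsOpen (UpperHalfPlane.coe '' U) := isOpenEmbedding_coe.isOpenMap U hU
  have hmeas : Measurable fun z : ℂ => (((1 / ‖z.im‖₊) ^ 2 : ℝ≥0) : ℝ≥0∞) := by fun_prop
  rw [setLIntegral_pos_iff hmeas]
  have hsub : UpperHalfPlane.coe '' U ⊆
      Function.support (fun z : ℂ => (((1 / ‖z.im‖₊) ^ 2 : ℝ≥0) : ℝ≥0∞)) ∩
        UpperHalfPlane.coe '' U := by
    rintro _ ⟨z, hz, rfl⟩
    refine ⟨?_, z, hz, rfl⟩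
    have him : z.im ≠ 0 := z.im_pos.ne'
    simp [Function.mem_support, him]
  exact lt_of_lt_of_le (hopen.measure_pos volume (hne.image _)) (measure_mono hsub)

/-- PC. -/
theorem open_pos : Stmt_open_pos := fun _ hU hne => volume_pos_of_isOpen hU hne

/-- For `g ≠ ±1` the translate `g • 𝒟` meets `𝒟` in a null set. -/
theorem volume_smul_fd_inter_fd {g : SL(2, ℤ)} (h1 : g ≠ 1) (h2 : g ≠ -1) :
    (volume : Measure ℍ) ((g • (𝒟 : Set ℍ)) ∩ 𝒟) = 0 := by
  have hsub : (g • (𝒟 : Set ℍ)) ∩ 𝒟 ⊆ g • ((𝒟 : Set ℍ) \ 𝒟ᵒ) := by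
    rintro _ ⟨⟨w, hw, rfl⟩, hz⟩
    refine ⟨w, ⟨hw, fun hwo => ?_⟩, rfl⟩
    rcases eq_one_or_neg_one_of_mem_fdo_mem_fd hwo hz with h | h
    · exact h1 h
    · exact h2 h
  refine measure_mono_null hsub ?_
  rw [measure_smul]
  exact volume_fd_diff_fdo

/-- The translates of the standard fundamental domain cover `ℍ`. -/
theorem iUnion_smul_fd : (⋃ g : SL(2, ℤ), g • (𝒟 : Set ℍ)) = univ := by
  refine eq_univ_of_forall fun z => ?_
  obtain ⟨g, hg⟩ := exists_smul_mem_fd z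
  refine mem_iUnion.2 ⟨g⁻¹, ?_⟩
  exact ⟨g • z, hg, by simp⟩

end Fermat.Agent.R.Pet.H78
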