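import Fermat.Agent.R.Pet.Defs2

/-!
# Pet (helper58): pointwise algebra of the Petersson integrand, boundedness, mean values.
-/

set_option autoImplicit false

namespace Fermat.Agent.R.Pet

open UpperHalfPlane ModularForm MatrixGroups MeasureTheory CongruenceSubgroup
open scoped Modular Pointwise ComplexConjugate

section pointwise

variable (k : ℤ)

lemma pet_add_left (f f' g : ℍ → ℂ) :
    petersson k (f + f') g = petersson k f g + petersson k f' g := by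
  funext τ
  simp only [petersson, Pi.add_apply, map_add]
  ring

lemma pet_add_right (f g g' : ℍ → ℂ) :
    petersson k f (g + g') = petersson k f g + petersson k f g' := by
  funext τ
  simp only [petersson, Pi.add_apply]
  ring

lemma pet_zero_left (g : ℍ → ℂ) : petersson k 0 g = 0 := by
  funext τ
  simp [petersson]

lemma pet_zero_right (f : ℍ → ℂ) : petersson k f 0 = 0 := by
  funext τ
  simp [petersson]

lemma pet_sum_left {ι : Type*} (s : Finset ι) (f : ι → ℍ → ℂ) (g : ℍ → ℂ) :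
    petersson k (∑ j ∈ s, f j) g = ∑ j ∈ s, petersson k (f j) g := by
  classical
  induction s using Finset.induction_on with
  | empty => simp [pet_zero_left]
  | insert a s ha ih => rw [Finset.sum_insert ha, Finset.sum_insert ha, pet_add_left, ih]

lemma pet_sum_right {ι : Type*} (s : Finset ι) (f : ℍ → ℂ) (g : ι → ℍ → ℂ) :
    petersson k f (∑ j ∈ s, g j) = ∑ j ∈ s, petersson k f (g j) := by
  classical
  induction s using Finset.induction_on with
  | empty => simp [pet_zero_right]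
  | insert a s ha ih => rw [Finset.sum_insert ha, Finset.sum_insert ha, pet_add_right, ih]

lemma pet_smul_right (c : ℂ) (f g : ℍ → ℂ) :
    petersson k f (c • g) = c • petersson k f g := by
  funext τ
  simp only [petersson, Pi.smul_apply, smul_eq_mul]
  ring

lemma pet_smul_left (c : ℂ) (f g : ℍ → ℂ) :
    petersson k (c • f) g = conj c • petersson k f g := by
  funext τ
  simp only [petersson, Pi.smul_apply, smul_eq_mul, map_mul]
  ring

lemma norm_pet (f g : ℍ → ℂ) (τ : ℍ) :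
    ‖petersson k f g τ‖ = ‖f τ‖ * ‖g τ‖ * τ.im ^ k := by
  have h : (0 : ℝ) ≤ τ.im ^ k := zpow_nonneg τ.im_pos.le k
  rw [petersson, norm_mul, norm_mul, RCLike.norm_conj, norm_zpow, Complex.norm_real,
    Real.norm_of_nonneg τ.im_pos.le]

lemma pet_self (f : ℍ → ℂ) (τ : ℍ) :
    petersson k f f τ = ((‖f τ‖ ^ 2 * τ.im ^ k : ℝ) : ℂ) := by
  rw [petersson, Complex.conj_mul']
  push_cast
  ring

/-- `‖f‖² · im^k` is bounded. -/
def PetBdd (f : ℍ → ℂ) : Prop := ∃ C, ∀ τ, ‖petersson k f f τ‖ ≤ C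

variable {k}

lemma PetBdd.pair {f g : ℍ → ℂ} (hf : PetBdd k f) (hg : PetBdd k g) :
    ∃ C, ∀ τ, ‖petersson k f g τ‖ ≤ C := by
  obtain ⟨C, hC⟩ := hf
  obtain ⟨C', hC'⟩ := hg
  refine ⟨(C + C') / 2, fun τ => ?_⟩
  have h1 := hC τ
  have h2 := hC' τ
  rw [norm_pet] at h1 h2 ⊢
  have h : (0 : ℝ) ≤ τ.im ^ k := zpow_nonneg τ.im_pos.le k
  have h3 : ‖f τ‖ * ‖g τ‖ ≤ (‖f τ‖ * ‖f τ‖ + ‖g τ‖ * ‖g τ‖) / 2 := by
    nlinarith [sq_nonneg (‖f τ‖ - ‖g τ‖)]
  calc ‖f τ‖ * ‖g τ‖ * τ.im ^ k ≤ (‖f τ‖ * ‖f τ‖ + ‖g τ‖ * ‖g τ‖) / 2 * τ.im ^ k :=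
        mul_le_mul_of_nonneg_right h3 h
    _ = (‖f τ‖ * ‖f τ‖ * τ.im ^ k + ‖g τ‖ * ‖g τ‖ * τ.im ^ k) / 2 := by ring
    _ ≤ (C + C') / 2 := by linarith

lemma PetBdd.slash {f : ℍ → ℂ} (hf : PetBdd k f) (g : GL (Fin 2) ℝ) : PetBdd k (f ∣[k] g) := by
  obtain ⟨C, hC⟩ := hf
  refine ⟨‖((|g.det.val| : ℝ) : ℂ) ^ (k - 2)‖ * C, fun τ => ?_⟩
  rw [petersson_slash, norm_mul, norm_σ]
  exact mul_le_mul_of_nonneg_left (hC _) (norm_nonneg _)

lemma PetBdd.of_cuspForm {N : ℕ} [NeZero N] (f : CuspForm (Gamma0 N) k) : PetBdd k f :=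
  CuspFormClass.petersson_bounded_left k _ f f

end pointwise

section meanLin

variable {F : Set ℍ}

lemma mean_add {Φ Ψ : ℍ → ℂ} (hΦ : IntegrableOn Φ F volume) (hΨ : IntegrableOn Ψ F volume) :
    mean F (Φ + Ψ) = mean F Φ + mean F Ψ := by
  unfold mean
  have : ∫ z in F, (Φ + Ψ) z = (∫ z in F, Φ z) + ∫ z in F, Ψ z := integral_add hΦ hΨ
  rw [this, add_div]

lemma mean_sum {ι : Type*} (s : Finset ι) {Φ : ι → ℍ → ℂ}
    (hΦ : ∀ j ∈ s, IntegrableOn (Φ j) F volume) :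
    mean F (∑ j ∈ s, Φ j) = ∑ j ∈ s, mean F (Φ j) := by
  unfold mean
  have : ∫ z in F, (∑ j ∈ s, Φ j) z = ∑ j ∈ s, ∫ z in F, Φ j z := by
    simp only [Finset.sum_apply]
    exact integral_finsetSum s hΦ
  rw [this, Finset.sum_div]

lemma mean_congr {Φ Ψ : ℍ → ℂ} (h : ∀ z, Φ z = Ψ z) : mean F Φ = mean F Ψ := by
  have : Φ = Ψ := funext h
  rw [this]

lemma integrableOn_of_bdd_cont (hF : volume F < ⊤) {Φ : ℍ → ℂ} (hc : Continuous Φ)
    (hb : ∃ C, ∀ τ, ‖Φ τ‖ ≤ C) : IntegrableOn Φ F volume := by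
  obtain ⟨C, hC⟩ := hb
  exact Measure.integrableOn_of_bounded hF.ne hc.aestronglyMeasurable
    (Filter.Eventually.of_forall hC)

end meanLin

end Fermat.Agent.R.Pet
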