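import Fermat.Agent.R.Pet.Defs3
import Fermat.Agent.R.Pet.H58_PetA
import Fermat.Agent.R.Pet.H22_PE
import Fermat.Agent.R.Pet.H98_Mean

/-!
# Pet (cluster R, leaf L3a): package ADJ (helper98)

`stmt_adj_of : Stmt_mean_SL → Stmt_comm0 → Stmt_conj0 → Stmt_conjInf → Stmt_adj`:
the Hecke operator `T_ℓ` (`ℓ ∤ N`) is self-adjoint for the mean value of the Petersson integrand
over a fundamental domain of `Γ(3Nℓ)`.

Reusable: `countable_SL2Z`, `countable_GamR`, `Gamma_le_Gamma0_of_dvd`, `pet_smul_of_slash`,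
`pet_inv_GamR`, `slash_a0_inv`, `slash_ainf_inv`, `slash_ainf_a0`, `pet_a0_eq`, `mean_pet_a0`,
`Nice` (continuity + boundedness), `Nice.integrableOn`.
-/

set_option autoImplicit false

namespace Fermat.Agent.R.Pet.H98

open UpperHalfPlane ModularForm MatrixGroups MeasureTheory CongruenceSubgroup
open scoped Modular Pointwise ComplexConjugate

section Adj

theorem countable_SL2Z : Countable SL(2, ℤ) := by
  have h : Function.Injective (fun (γ : SL(2, ℤ)) (i : Fin 2) (j : Fin 2) =>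
      (γ : Matrix (Fin 2) (Fin 2) ℤ) i j) := by
    intro a b hab
    ext i j
    exact congrFun (congrFun hab i) j
  exact h.countable

theorem countable_GamR (M : ℕ) : Countable (GamR M) := by
  have := countable_SL2Z
  have h : Function.Surjective
      (fun γ : Gamma M => (⟨Matrix.SpecialLinearGroup.mapGL ℝ (γ : SL(2, ℤ)),
        Subgroup.mem_map_of_mem _ γ.2⟩ : GamR M)) := by
    rintro ⟨g, γ, hγ, rfl⟩
    exact ⟨⟨γ, hγ⟩, rfl⟩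
  exact h.countable

variable {N : ℕ} {k : ℤ} {ℓ : ℕ}

/-- (a) invariance of a cusp form of level `Γ₀(N)` under the slash action of `Γ₀(N)`. -/
lemma slash_of_mem_Gamma0 (f : CuspForm (Gamma0 N) k) {γ : SL(2, ℤ)} (hγ : γ ∈ Gamma0 N) :
    (⇑f) ∣[k] (γ : GL (Fin 2) ℝ) = ⇑f :=
  SlashInvariantFormClass.slash_action_eq f _ (Subgroup.mem_map_of_mem _ hγ)

lemma Gamma_le_Gamma0_of_dvd {M : ℕ} (h : N ∣ M) : Gamma M ≤ Gamma0 N := by
  intro γ hγ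
  rw [Gamma_mem] at hγ
  rw [Gamma0_mem]
  have h1 : ((γ 1 0 : ℤ) : ZMod M) = 0 := hγ.2.2.1
  rw [ZMod.intCast_zmod_eq_zero_iff_dvd] at h1 ⊢
  exact (Int.natCast_dvd_natCast.2 h).trans h1

/-- (b) invariance of the Petersson integrand. -/
lemma pet_smul_of_slash {u v : ℍ → ℂ} {γ : SL(2, ℤ)} (hu : u ∣[k] (γ : GL (Fin 2) ℝ) = u)
    (hv : v ∣[k] (γ : GL (Fin 2) ℝ) = v) (z : ℍ) :
    petersson k u v ((γ : GL (Fin 2) ℝ) • z) = petersson k u v z := by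
  have := petersson_slash_SL k u v γ z
  rw [show u ∣[k] γ = u from hu, show v ∣[k] γ = v from hv] at this
  exact this.symm

/-- The Petersson integrand after slashing the left argument by `γ ∈ SL(2, ℤ)` fixing the
right argument. -/
lemma pet_slash_left {u v : ℍ → ℂ} {γ : SL(2, ℤ)}
    (hv : v ∣[k] (γ : GL (Fin 2) ℝ) = v) (z : ℍ) :
    petersson k (u ∣[k] (γ : GL (Fin 2) ℝ)) v z = petersson k u v ((γ : GL (Fin 2) ℝ) • z) := by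
  have := petersson_slash_SL k u v γ z
  rw [show v ∣[k] γ = v from hv] at this
  exact this

lemma pet_slash_right {u v : ℍ → ℂ} {γ : SL(2, ℤ)}
    (hu : u ∣[k] (γ : GL (Fin 2) ℝ) = u) (z : ℍ) :
    petersson k u (v ∣[k] (γ : GL (Fin 2) ℝ)) z = petersson k u v ((γ : GL (Fin 2) ℝ) • z) := by
  have := petersson_slash_SL k u v γ z
  rw [show u ∣[k] γ = u from hu] at this
  exact this

/-- (c) `f ∣ α₀` is invariant under `Γ(Mℓ)` when `N ∣ M`. -/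
lemma slash_a0_inv (hc : Stmt_conj0) (f : CuspForm (Gamma0 N) k) (hℓ : ℓ ≠ 0) {M : ℕ}
    (hM : N ∣ M) {γ : SL(2, ℤ)} (hγ : γ ∈ Gamma (M * ℓ)) :
    ((⇑f) ∣[k] heckeMatrix ℓ 0) ∣[k] (γ : GL (Fin 2) ℝ) = (⇑f) ∣[k] heckeMatrix ℓ 0 := by
  obtain ⟨δ, hδ, h⟩ := hc M ℓ hℓ γ hγ
  rw [← SlashAction.slash_mul, h, SlashAction.slash_mul,
    slash_of_mem_Gamma0 f (Gamma_le_Gamma0_of_dvd hM hδ)]

lemma slash_ainf_inv (hc : Stmt_conjInf) (f : CuspForm (Gamma0 N) k) (hℓ : ℓ ≠ 0) {M : ℕ}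
    (hM : N ∣ M) {γ : SL(2, ℤ)} (hγ : γ ∈ Gamma (M * ℓ)) :
    ((⇑f) ∣[k] heckeDiagMatrix ℓ) ∣[k] (γ : GL (Fin 2) ℝ) = (⇑f) ∣[k] heckeDiagMatrix ℓ := by
  obtain ⟨δ, hδ, h⟩ := hc M ℓ hℓ γ hγ
  rw [← SlashAction.slash_mul, h, SlashAction.slash_mul,
    slash_of_mem_Gamma0 f (Gamma_le_Gamma0_of_dvd hM hδ)]

lemma slash_self_of_mem_Gamma (f : CuspForm (Gamma0 N) k) {M : ℕ}
    (hM : N ∣ M) {γ : SL(2, ℤ)} (hγ : γ ∈ Gamma M) :
    (⇑f) ∣[k] (γ : GL (Fin 2) ℝ) = ⇑f :=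
  slash_of_mem_Gamma0 f (Gamma_le_Gamma0_of_dvd hM hγ)

/-- invariance of `P(u, v)` under `GamR M` from the slash invariance of `u`, `v` under `Γ(M)`. -/
lemma pet_inv_GamR {u v : ℍ → ℂ} {M : ℕ}
    (hu : ∀ γ ∈ Gamma M, u ∣[k] (γ : GL (Fin 2) ℝ) = u)
    (hv : ∀ γ ∈ Gamma M, v ∣[k] (γ : GL (Fin 2) ℝ) = v) :
    ∀ g ∈ GamR M, ∀ z, petersson k u v (g • z) = petersson k u v z := by
  rintro g ⟨γ, hγ, rfl⟩ z
  exact pet_smul_of_slash (hu γ hγ) (hv γ hγ) z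

/-- (d), left slot. -/
lemma mean_pet_slash_left (hSL : Stmt_mean_SL) {M : ℕ} {F : Set ℍ} (hF : IsFD (GamR M) F)
    {u v : ℍ → ℂ} (hu : ∀ γ ∈ Gamma M, u ∣[k] (γ : GL (Fin 2) ℝ) = u)
    (hv : ∀ γ ∈ Gamma M, v ∣[k] (γ : GL (Fin 2) ℝ) = v)
    {γ' : SL(2, ℤ)} (hvγ : v ∣[k] (γ' : GL (Fin 2) ℝ) = v) :
    mean F (petersson k (u ∣[k] (γ' : GL (Fin 2) ℝ)) v) = mean F (petersson k u v) := by
  rw [← hSL M F hF γ' (petersson k u v) (pet_inv_GamR hu hv)]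
  exact mean_congr (fun z => pet_slash_left hvγ z)

/-- (d), right slot. -/
lemma mean_pet_slash_right (hSL : Stmt_mean_SL) {M : ℕ} {F : Set ℍ} (hF : IsFD (GamR M) F)
    {u v : ℍ → ℂ} (hu : ∀ γ ∈ Gamma M, u ∣[k] (γ : GL (Fin 2) ℝ) = u)
    (hv : ∀ γ ∈ Gamma M, v ∣[k] (γ : GL (Fin 2) ℝ) = v)
    {γ' : SL(2, ℤ)} (huγ : u ∣[k] (γ' : GL (Fin 2) ℝ) = u) :
    mean F (petersson k u (v ∣[k] (γ' : GL (Fin 2) ℝ))) = mean F (petersson k u v) := by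
  rw [← hSL M F hF γ' (petersson k u v) (pet_inv_GamR hu hv)]
  exact mean_congr (fun z => pet_slash_right huγ z)

lemma heckeDiag_smul_heckeMatrix_smul (hℓ : ℓ ≠ 0) (τ : ℍ) :
    heckeDiagMatrix ℓ • heckeMatrix ℓ 0 • τ = τ := by
  have hℓ' : (ℓ : ℂ) ≠ 0 := Nat.cast_ne_zero.2 hℓ
  ext1
  rw [coe_heckeDiagMatrix_smul hℓ, coe_heckeMatrix_smul hℓ]
  simp only [Nat.cast_zero, add_zero]
  field_simp

lemma slash_ainf_a0 (hℓ : ℓ ≠ 0) (g : ℍ → ℂ) :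
    (g ∣[k] heckeDiagMatrix ℓ) ∣[k] heckeMatrix ℓ 0 = ((ℓ : ℂ) ^ (k - 2)) • g := by
  have hℓ' : (ℓ : ℂ) ≠ 0 := Nat.cast_ne_zero.2 hℓ
  funext τ
  rw [slash_heckeMatrix_apply k hℓ, slash_heckeDiagMatrix_apply k hℓ,
    heckeDiag_smul_heckeMatrix_smul hℓ, Pi.smul_apply, smul_eq_mul, ← mul_assoc]
  congr 1
  rw [show k - 1 = (k - 2) + 1 by ring, zpow_add₀ hℓ', zpow_one]
  field_simp

/-- (e), pointwise. -/
lemma pet_a0_eq (hℓ : ℓ ≠ 0) (u v : ℍ → ℂ) (τ : ℍ) :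
    petersson k (u ∣[k] heckeMatrix ℓ 0) v τ
      = petersson k u (v ∣[k] heckeDiagMatrix ℓ) (heckeMatrix ℓ 0 • τ) := by
  have hℓ' : (ℓ : ℂ) ≠ 0 := Nat.cast_ne_zero.2 hℓ
  have h1 := petersson_slash k u (v ∣[k] heckeDiagMatrix ℓ) (heckeMatrix ℓ 0) τ
  rw [slash_ainf_a0 hℓ, pet_smul_right, σ_heckeMatrix, det_heckeMatrix hℓ] at h1
  simp only [Pi.smul_apply, smul_eq_mul, ContinuousAlgEquiv.refl_apply, Nat.abs_cast,
    Complex.ofReal_natCast] at h1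
  exact mul_left_cancel₀ (zpow_ne_zero _ hℓ') h1

/-- (e): the mean values of `P(f ∣ α₀, g)` and `P(f, g ∣ α∞)` agree. -/
lemma mean_pet_a0 (hcomm : Stmt_comm0) (hc0 : Stmt_conj0) (hcinf : Stmt_conjInf)
    (hℓ : ℓ ≠ 0) {M : ℕ} (hM0 : M ≠ 0) (hM : N ∣ M) {F : Set ℍ} (hF : IsFD (GamR (M * ℓ)) F)
    (f g : CuspForm (Gamma0 N) k) :
    mean F (petersson k ((⇑f) ∣[k] heckeMatrix ℓ 0) ⇑g)
      = mean F (petersson k ⇑f ((⇑g) ∣[k] heckeDiagMatrix ℓ)) := by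
  have := countable_GamR (M * ℓ)
  have h1 : mean F (petersson k ((⇑f) ∣[k] heckeMatrix ℓ 0) ⇑g)
      = mean F (fun z => petersson k ⇑f ((⇑g) ∣[k] heckeDiagMatrix ℓ) (heckeMatrix ℓ 0 • z)) :=
    mean_congr (fun z => pet_a0_eq hℓ _ _ z)
  rw [h1]
  refine mean_conj hF (heckeMatrix ℓ 0) (hcomm (M * ℓ) ℓ (mul_ne_zero hM0 hℓ) hℓ) _ ?_ ?_
  · exact pet_inv_GamR (fun γ hγ => slash_self_of_mem_Gamma f (hM.mul_right ℓ) hγ)
      (fun γ hγ => slash_ainf_inv hcinf g hℓ hM hγ)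
  · rintro g' ⟨γ, hγ, rfl⟩ z
    rw [mul_smul, mul_smul, ← pet_a0_eq hℓ]
    refine (pet_smul_of_slash (slash_a0_inv hc0 f hℓ hM hγ)
        (slash_self_of_mem_Gamma g (hM.mul_right ℓ) hγ) _).trans ?_
    rw [pet_a0_eq hℓ, smul_inv_smul]

/-- Continuity and boundedness, the two properties needed for integrability. -/
def Nice (k : ℤ) (u : ℍ → ℂ) : Prop := Continuous u ∧ PetBdd k u

lemma Nice.of_cuspForm (f : CuspForm (Gamma0 N) k) [NeZero N] : Nice k ⇑f :=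
  ⟨(CuspFormClass.holo f).continuous, PetBdd.of_cuspForm f⟩

lemma Nice.slash_heckeMatrix {u : ℍ → ℂ} (hu : Nice k u) (hℓ : ℓ ≠ 0) (j : ℕ) :
    Nice k (u ∣[k] heckeMatrix ℓ j) := by
  refine ⟨?_, hu.2.slash _⟩
  have : u ∣[k] heckeMatrix ℓ j = fun τ => (ℓ : ℂ)⁻¹ * u (heckeMatrix ℓ j • τ) :=
    funext fun τ => slash_heckeMatrix_apply k hℓ j u τ
  rw [this]
  exact continuous_const.mul (hu.1.comp (continuous_const_smul _))

lemma Nice.slash_heckeDiagMatrix {u : ℍ → ℂ} (hu : Nice k u) (hℓ : ℓ ≠ 0) :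
    Nice k (u ∣[k] heckeDiagMatrix ℓ) := by
  refine ⟨?_, hu.2.slash _⟩
  have : u ∣[k] heckeDiagMatrix ℓ = fun τ => (ℓ : ℂ) ^ (k - 1) * u (heckeDiagMatrix ℓ • τ) :=
    funext fun τ => slash_heckeDiagMatrix_apply k hℓ u τ
  rw [this]
  exact continuous_const.mul (hu.1.comp (continuous_const_smul _))

lemma Nice.integrableOn {u v : ℍ → ℂ} (hu : Nice k u) (hv : Nice k v) {F : Set ℍ}
    (hF : volume F < ⊤) : IntegrableOn (petersson k u v) F volume :=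
  integrableOn_of_bdd_cont hF (petersson_continuous k hu.1 hv.1) (hu.2.pair hv.2)

lemma T_pow_mem_Gamma0 (N j : ℕ) : (ModularGroup.T ^ j : SL(2, ℤ)) ∈ Gamma0 N := by
  rw [Gamma0_mem]
  have h := ModularGroup.coe_T_zpow (j : ℤ)
  rw [zpow_natCast] at h
  rw [h]
  simp

/-- **ADJ**: `T_ℓ` is self-adjoint for the mean values of the Petersson integrand. -/
theorem stmt_adj_of (hSL : Stmt_mean_SL) (hcomm : Stmt_comm0) (hc0 : Stmt_conj0)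
    (hcinf : Stmt_conjInf) : Stmt_adj := by
  intro N _ k ℓ hℓ hℓN F hF f g
  have hℓ0 : ℓ ≠ 0 := hℓ.ne_zero
  have hM0 : 3 * N ≠ 0 := mul_ne_zero (by norm_num) (NeZero.ne N)
  have hM : N ∣ 3 * N := Dvd.intro_left 3 rfl
  have hMℓ : N ∣ 3 * N * ℓ := hM.mul_right ℓ
  have hf : ∀ γ ∈ Gamma (3 * N * ℓ), (⇑f) ∣[k] (γ : GL (Fin 2) ℝ) = ⇑f :=
    fun γ hγ => slash_self_of_mem_Gamma f hMℓ hγ
  have hg : ∀ γ ∈ Gamma (3 * N * ℓ), (⇑g) ∣[k] (γ : GL (Fin 2) ℝ) = ⇑g :=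
    fun γ hγ => slash_self_of_mem_Gamma g hMℓ hγ
  have hfa : ∀ γ ∈ Gamma (3 * N * ℓ), ((⇑f) ∣[k] heckeMatrix ℓ 0) ∣[k] (γ : GL (Fin 2) ℝ)
      = (⇑f) ∣[k] heckeMatrix ℓ 0 := fun γ hγ => slash_a0_inv hc0 f hℓ0 hM hγ
  have hga : ∀ γ ∈ Gamma (3 * N * ℓ), ((⇑g) ∣[k] heckeMatrix ℓ 0) ∣[k] (γ : GL (Fin 2) ℝ)
      = (⇑g) ∣[k] heckeMatrix ℓ 0 := fun γ hγ => slash_a0_inv hc0 g hℓ0 hM hγ
  -- (d)
  have hL : ∀ j, mean F (petersson k ((⇑f) ∣[k] heckeMatrix ℓ j) ⇑g)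
      = mean F (petersson k ((⇑f) ∣[k] heckeMatrix ℓ 0) ⇑g) := by
    intro j
    rw [H22.stmt_heckeMatrix_eq ℓ j hℓ0, SlashAction.slash_mul]
    exact mean_pet_slash_left hSL hF hfa hg (slash_of_mem_Gamma0 g (T_pow_mem_Gamma0 N j))
  have hR : ∀ j, mean F (petersson k ⇑f ((⇑g) ∣[k] heckeMatrix ℓ j))
      = mean F (petersson k ⇑f ((⇑g) ∣[k] heckeMatrix ℓ 0)) := by
    intro j
    rw [H22.stmt_heckeMatrix_eq ℓ j hℓ0, SlashAction.slash_mul]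
    exact mean_pet_slash_right hSL hF hf hga (slash_of_mem_Gamma0 f (T_pow_mem_Gamma0 N j))
  obtain ⟨γ, hγ, γ', hγ', hdc⟩ := H22.stmt_double_coset N ℓ hℓ hℓN
  have hLinf : mean F (petersson k ((⇑f) ∣[k] heckeDiagMatrix ℓ) ⇑g)
      = mean F (petersson k ((⇑f) ∣[k] heckeMatrix ℓ 0) ⇑g) := by
    rw [hdc, SlashAction.slash_mul, SlashAction.slash_mul, slash_of_mem_Gamma0 f hγ]
    exact mean_pet_slash_left hSL hF hfa hg (slash_of_mem_Gamma0 g hγ')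
  have hRinf : mean F (petersson k ⇑f ((⇑g) ∣[k] heckeDiagMatrix ℓ))
      = mean F (petersson k ⇑f ((⇑g) ∣[k] heckeMatrix ℓ 0)) := by
    rw [hdc, SlashAction.slash_mul, SlashAction.slash_mul, slash_of_mem_Gamma0 g hγ]
    exact mean_pet_slash_right hSL hF hf hga (slash_of_mem_Gamma0 f hγ')
  -- (e)
  have hE := mean_pet_a0 hcomm hc0 hcinf hℓ0 hM0 hM hF f g
  -- integrability
  have nf : Nice k ⇑f := Nice.of_cuspForm f
  have ng : Nice k ⇑g := Nice.of_cuspForm g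
  -- (f)
  rw [CuspForm.coe_heckeTLin_apply, CuspForm.coe_heckeTLin_apply, heckeT_def, heckeT_def,
    pet_add_left, pet_add_right, pet_sum_left, pet_sum_right]
  rw [mean_add, mean_add, mean_sum, mean_sum]
  · simp only [hL, hR, hLinf, hRinf, hE]
  · exact fun j _ => nf.integrableOn (ng.slash_heckeMatrix hℓ0 j) hF.fin
  · exact fun j _ => (nf.slash_heckeMatrix hℓ0 j).integrableOn ng hF.fin
  · exact integrable_finsetSum' _ fun j _ => nf.integrableOn (ng.slash_heckeMatrix hℓ0 j) hF.fin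
  · exact nf.integrableOn (ng.slash_heckeDiagMatrix hℓ0) hF.fin
  · exact integrable_finsetSum' _ fun j _ => (nf.slash_heckeMatrix hℓ0 j).integrableOn ng hF.fin
  · exact (nf.slash_heckeDiagMatrix hℓ0).integrableOn ng hF.fin

end Adj
end Fermat.Agent.R.Pet.H98
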