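import Fermat.Agent.R.Pet.H98_Mean

/-!
# Pet (cluster R, leaf L3a): package FD1 in conditional form (helper98)

`stmt_exists_fd_of : Stmt_fd_boundary_null → Stmt_fd_volume_lt_top → Stmt_exists_fd`:
for `Γ ≤ SL(2, ℤ)` of finite index with `-1 ∉ Γ`, the set
`fdOf Γ = ⋃ c : SL(2, ℤ) ⧸ (Γ ∪ -Γ), c.out⁻¹ • 𝒟` is a fundamental domain of finite volume
of the image of `Γ` in `GL₂(ℝ)`.
-/


set_option autoImplicit false

namespace Fermat.Agent.R.Pet.H98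

open MeasureTheory Set UpperHalfPlane MatrixGroups Matrix.SpecialLinearGroup
open scoped Pointwise ENNReal Modular

/-- `Γ ∪ -Γ`. -/
def pmSubgroup (Γ : Subgroup SL(2, ℤ)) : Subgroup SL(2, ℤ) where
  carrier := {g | g ∈ Γ ∨ -g ∈ Γ}
  one_mem' := Or.inl Γ.one_mem
  mul_mem' := by
    rintro a b (ha | ha) (hb | hb)
    · exact Or.inl (Γ.mul_mem ha hb)
    · refine Or.inr ?_
      have := Γ.mul_mem ha hb
      rwa [mul_neg] at this
    · refine Or.inr ?_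
      have := Γ.mul_mem ha hb
      rwa [neg_mul] at this
    · refine Or.inl ?_
      have := Γ.mul_mem ha hb
      rwa [neg_mul_neg] at this
  inv_mem' := by
    rintro a (ha | ha)
    · exact Or.inl (Γ.inv_mem ha)
    · refine Or.inr ?_
      have := Γ.inv_mem ha
      rwa [inv_neg] at this

theorem mem_pmSubgroup {Γ : Subgroup SL(2, ℤ)} {g : SL(2, ℤ)} :
    g ∈ pmSubgroup Γ ↔ g ∈ Γ ∨ -g ∈ Γ := Iff.rfl

theorem le_pmSubgroup (Γ : Subgroup SL(2, ℤ)) : Γ ≤ pmSubgroup Γ := fun _ h => Or.inl h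

/-- The fundamental domain of `Γ`: a union of translates of `𝒟`. -/
def fdOf (Γ : Subgroup SL(2, ℤ)) : Set ℍ :=
  ⋃ c : SL(2, ℤ) ⧸ pmSubgroup Γ, ((Quotient.out c)⁻¹ : SL(2, ℤ)) • (𝒟 : Set ℍ)

theorem sl_smul_set (g : SL(2, ℤ)) (s : Set ℍ) : g • s = (mapGL ℝ g) • s := rfl

theorem measure_sl_smul (g : SL(2, ℤ)) (s : Set ℍ) : volume (g • s) = volume s := by
  rw [sl_smul_set, measure_smul]

theorem measurableSet_fd : MeasurableSet (𝒟 : Set ℍ) := ModularGroup.isClosed_fd.measurableSet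

theorem measurableSet_sl_smul (g : SL(2, ℤ)) {s : Set ℍ} (hs : MeasurableSet s) :
    MeasurableSet (g • s) := by
  rw [sl_smul_set]
  exact hs.const_smul _

theorem ne_neg_of_not_mem {Γ : Subgroup SL(2, ℤ)} (hΓ : (-1 : SL(2, ℤ)) ∉ Γ)
    {h₁ h₂ : SL(2, ℤ)} (h1 : h₁ ∈ Γ) (h2 : h₂ ∈ Γ) : h₁ ≠ -h₂ := by
  intro h
  apply hΓ
  have := Γ.mul_mem h1 (Γ.inv_mem h2)
  rwa [h, neg_mul, mul_inv_cancel] at this

/-- Two translates of `𝒟` by elements which differ not only by sign meet in a null set. -/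
theorem measure_smul_fd_inter_smul_fd (hA : Stmt_fd_boundary_null) {a b : SL(2, ℤ)}
    (h1 : a ≠ b) (h2 : a ≠ -b) : volume ((a • (𝒟 : Set ℍ)) ∩ (b • (𝒟 : Set ℍ))) = 0 := by
  have hsub : (a • (𝒟 : Set ℍ)) ∩ (b • (𝒟 : Set ℍ)) ⊆ a • ((𝒟 : Set ℍ) \ 𝒟ᵒ) := by
    rintro z ⟨⟨w, hw, rfl⟩, ⟨w', hw', hww'⟩⟩
    refine ⟨w, ⟨hw, fun hwo => ?_⟩, rfl⟩
    have hw'' : (b⁻¹ * a) • w ∈ 𝒟 := by
      have : (b⁻¹ * a) • w = w' := by
        rw [mul_smul, inv_smul_eq_iff]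
        exact hww'.symm
      rw [this]; exact hw'
    rcases ModularGroup.eq_one_or_neg_one_of_mem_fdo_mem_fd hwo hw'' with h | h
    · apply h1
      have := congrArg (fun g => b * g) h
      simpa using this
    · apply h2
      have := congrArg (fun g => b * g) h
      simpa using this
  refine measure_mono_null hsub ?_
  rw [measure_sl_smul]
  exact hA

theorem isFD_fdOf (hA : Stmt_fd_boundary_null) (hB : Stmt_fd_volume_lt_top)
    (Γ : Subgroup SL(2, ℤ)) [Γ.FiniteIndex] (hΓ : (-1 : SL(2, ℤ)) ∉ Γ) :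
    IsFD (Γ.map (mapGL ℝ)) (fdOf Γ) := by
  have : (pmSubgroup Γ).FiniteIndex := Subgroup.finiteIndex_of_le (le_pmSubgroup Γ)
  have hfin : Finite (SL(2, ℤ) ⧸ pmSubgroup Γ) := Subgroup.finite_quotient_of_finiteIndex
  refine ⟨⟨?_, ?_, ?_⟩, ?_⟩
  · refine MeasurableSet.nullMeasurableSet ?_
    exact MeasurableSet.iUnion fun c => measurableSet_sl_smul _ measurableSet_fd
  · refine Filter.Eventually.of_forall fun z => ?_
    obtain ⟨γ, hγ⟩ := ModularGroup.exists_smul_mem_fd z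
    obtain ⟨h, hh⟩ := QuotientGroup.mk_out_eq_mul (pmSubgroup Γ) γ
    -- `h₀ = ± h ∈ Γ`
    obtain ⟨h₀, hh₀, hh₀'⟩ : ∃ h₀ ∈ Γ, ∀ w : ℍ, h₀ • w = (h : SL(2, ℤ)) • w := by
      rcases h.2 with h' | h'
      · exact ⟨h, h', fun _ => rfl⟩
      · exact ⟨-h, h', fun w => ModularGroup.SL_neg_smul _ w⟩
    refine ⟨⟨mapGL ℝ h₀⁻¹, Subgroup.mem_map_of_mem _ (Γ.inv_mem hh₀)⟩, ?_⟩
    refine mem_iUnion.2 ⟨(γ : SL(2, ℤ) ⧸ pmSubgroup Γ), ?_⟩
    rw [mem_inv_smul_set_iff, hh]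
    show (γ * (h : SL(2, ℤ))) • (h₀⁻¹ • z) ∈ 𝒟
    rw [mul_smul, ← hh₀', smul_inv_smul]
    exact hγ
  · intro g₁ g₂ hne
    obtain ⟨g₁, h₁, hh₁, rfl⟩ := g₁
    obtain ⟨g₂, h₂, hh₂, rfl⟩ := g₂
    have hne' : h₁ ≠ h₂ := fun h => hne (by subst h; rfl)
    show AEDisjoint volume ((mapGL ℝ h₁) • fdOf Γ) ((mapGL ℝ h₂) • fdOf Γ)
    have e : ∀ h : SL(2, ℤ), (mapGL ℝ h) • fdOf Γ
        = ⋃ c : SL(2, ℤ) ⧸ pmSubgroup Γ, (h * (Quotient.out c)⁻¹) • (𝒟 : Set ℍ) := by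
      intro h
      rw [← sl_smul_set, fdOf, smul_set_iUnion]
      refine iUnion_congr fun c => ?_
      rw [mul_smul]
    rw [e, e]
    refine AEDisjoint.iUnion_left_iff.2 fun c₁ => AEDisjoint.iUnion_right_iff.2 fun c₂ => ?_
    refine measure_smul_fd_inter_smul_fd hA ?_ ?_
    · intro h
      have := out_inv_injective (pmSubgroup Γ) (h₁ := ⟨h₁, Or.inl hh₁⟩) (h₂ := ⟨h₂, Or.inl hh₂⟩)
        (c₁ := c₁) (c₂ := c₂) h
      exact hne' (congrArg Subtype.val this.1)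
    · intro h
      have h' : h₁ * (Quotient.out c₁)⁻¹ = (-h₂) * (Quotient.out c₂)⁻¹ := by
        rw [h, neg_mul]
      have := out_inv_injective (pmSubgroup Γ) (h₁ := ⟨h₁, Or.inl hh₁⟩)
        (h₂ := ⟨-h₂, Or.inr (by simpa using hh₂)⟩) (c₁ := c₁) (c₂ := c₂) h'
      exact ne_neg_of_not_mem hΓ hh₁ hh₂ (congrArg Subtype.val this.1)
  · have : Fintype (SL(2, ℤ) ⧸ pmSubgroup Γ) := Fintype.ofFinite _
    refine lt_of_le_of_lt (measure_iUnion_le _) ?_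
    rw [tsum_fintype]
    refine ENNReal.sum_lt_top.2 fun c _ => ?_
    rw [measure_sl_smul]
    exact hB

theorem stmt_exists_fd_of (hA : Stmt_fd_boundary_null) (hB : Stmt_fd_volume_lt_top) :
    Stmt_exists_fd := by
  intro Γ _ hΓ
  exact ⟨fdOf Γ, isFD_fdOf hA hB Γ hΓ⟩

end Fermat.Agent.R.Pet.H98
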