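import Fermat.Agent.R.Pet.H58_PetB
import Fermat.Agent.R.Pet.H58_Reduced
import Fermat.Agent.R.Pet.H58_PC
import Fermat.Agent.R.Pet.H58_Pos
import Fermat.Agent.R.Pet.H78_FD
import Fermat.Agent.R.Pet.H98_FD1
import Fermat.Agent.R.Pet.H98_Adj
import Fermat.Agent.R.Pet.H22_Conj
import Fermat.Agent.R.Pet.H24_Pos

/-!
# Cluster R, leaf L3a: the anemic Hecke algebra of `S_k(Γ₀(N))` is reduced.

Assembly of the Pet mini-project (helper58 coordinator; helper22, helper24, helper78, helper98).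
-/

set_option autoImplicit false

namespace Fermat.Agent.R.Pet

open CongruenceSubgroup

/-- The Petersson pairing exists: positive definite, biadditive, `T_ℓ` (`ℓ ∤ N`) self-adjoint. -/
theorem stmt_pet (N : ℕ) [NeZero N] (k : ℤ) : Stmt_pet N k :=
  stmt_pet_of stmt_open_pos
    (H22.stmt_exists_fd_Gamma (H98.stmt_exists_fd_of H78.fd_boundary_null H78.fd_volume_lt_top))
    H24.stmt_mean_level stmt_pos
    (H98.stmt_adj_of H24.stmt_mean_SL H22.stmt_comm0 H22.stmt_conj0 H22.stmt_conjInf) N k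

/-- **L3a**: for `S ⊇ {primes dividing N}`, the Hecke algebra `heckeAlgebra N k S` is reduced. -/
theorem stmt_L3a : Stmt_L3a :=
  fun N _ k S hS => reduced_of_pet N k S hS (stmt_pet N k)

/-- L3a in the consumer's shape. -/
theorem heckeAlgebra_isReduced (N : ℕ) [NeZero N] (k : ℤ) (S : Set ℕ)
    (hS : ∀ q : ℕ, q.Prime → q ∣ N → q ∈ S) : IsReduced (CuspForm.heckeAlgebra N k S) :=
  stmt_L3a N k S hS

end Fermat.Agent.R.Pet
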