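import Fermat.Agent.R.Pet.Defs

/-!
# Cluster R, leaf L3a (helper58): further interfaces of the Pet mini-project.
-/

set_option autoImplicit false

namespace Fermat.Agent.R.Pet

open UpperHalfPlane ModularForm MatrixGroups MeasureTheory CongruenceSubgroup
open scoped Modular Pointwise

/-- POS: a continuous nonnegative invariant function whose integral over a fundamental domain
vanishes is identically zero.  (To be proved from `Stmt_open_pos`.) -/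
def Stmt_pos : Prop :=
  ∀ (𝒢 : Subgroup (GL (Fin 2) ℝ)), Countable 𝒢 → ∀ F : Set ℍ, IsFD 𝒢 F →
    ∀ Φ : ℍ → ℝ, Continuous Φ → (∀ z, 0 ≤ Φ z) → (∀ g ∈ 𝒢, ∀ z, Φ (g • z) = Φ z) →
      IntegrableOn Φ F volume → ∫ z in F, Φ z = 0 → ∀ z, Φ z = 0

/-- CONJ0: `α₀ Γ(Nℓ) α₀⁻¹ ⊆ Γ(N)` for `α₀ = heckeMatrix ℓ 0 = [[1,0],[0,ℓ]]`
(`δ = [[a, b/ℓ],[ℓ c, d]]`). -/
def Stmt_conj0 : Prop :=
  ∀ (N ℓ : ℕ), ℓ ≠ 0 → ∀ γ ∈ Gamma (N * ℓ), ∃ δ ∈ Gamma N,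
    heckeMatrix ℓ 0 * (γ : GL (Fin 2) ℝ) = (δ : GL (Fin 2) ℝ) * heckeMatrix ℓ 0

/-- CONJINF: `α∞ Γ(Nℓ) α∞⁻¹ ⊆ Γ(N)` for `α∞ = heckeDiagMatrix ℓ = [[ℓ,0],[0,1]]`
(`δ = [[a, ℓ b],[c/ℓ, d]]`). -/
def Stmt_conjInf : Prop :=
  ∀ (N ℓ : ℕ), ℓ ≠ 0 → ∀ γ ∈ Gamma (N * ℓ), ∃ δ ∈ Gamma N,
    heckeDiagMatrix ℓ * (γ : GL (Fin 2) ℝ) = (δ : GL (Fin 2) ℝ) * heckeDiagMatrix ℓ

/-- The image of `Γ(M)` in `GL₂(ℝ)`. -/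
abbrev GamR (M : ℕ) : Subgroup (GL (Fin 2) ℝ) :=
  (Gamma M).map (Matrix.SpecialLinearGroup.mapGL ℝ)

/-- MEAN-SL: the mean value over a fundamental domain of `Γ(M)` is invariant under `SL(2, ℤ)`
(from `Stmt_mean_conj` and normality of `Γ(M)`). -/
def Stmt_mean_SL : Prop :=
  ∀ (M : ℕ) (F : Set ℍ), IsFD (GamR M) F → ∀ γ : SL(2, ℤ), ∀ Ψ : ℍ → ℂ,
    (∀ g ∈ GamR M, ∀ z, Ψ (g • z) = Ψ z) →
      mean F (fun z => Ψ ((γ : GL (Fin 2) ℝ) • z)) = mean F Ψ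

/-- COMM0: `α₀ = heckeMatrix ℓ 0` commensurates `Γ(M)` (from `Subgroup.IsArithmetic.conj`). -/
def Stmt_comm0 : Prop :=
  ∀ (M ℓ : ℕ), M ≠ 0 → ℓ ≠ 0 →
    Subgroup.Commensurable ((GamR M).map (MulAut.conj (heckeMatrix ℓ 0)).toMonoidHom) (GamR M)

/-- MEAN-LEVEL: change of level for mean values (from `Stmt_mean_sub`). -/
def Stmt_mean_level : Prop :=
  ∀ (M M' : ℕ), M' ≠ 0 → M ∣ M' → ∀ (F F' : Set ℍ), IsFD (GamR M) F → IsFD (GamR M') F' →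
    ∀ Ψ : ℍ → ℂ, (∀ g ∈ GamR M, ∀ z, Ψ (g • z) = Ψ z) → mean F' Ψ = mean F Ψ

/-- FD-GAMMA: `Γ(M)`, `M ≥ 3`, has a fundamental domain of finite volume (from `Stmt_exists_fd`). -/
def Stmt_exists_fd_Gamma : Prop :=
  ∀ M : ℕ, 3 ≤ M → ∃ F : Set ℍ, IsFD (GamR M) F

end Fermat.Agent.R.Pet
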