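import Fermat.Agent.R.Pet.Defs2

/-!
# Cluster R, leaf L3a (helper58): the adjointness interface of the Pet mini-project.
-/

set_option autoImplicit false

namespace Fermat.Agent.R.Pet

open UpperHalfPlane ModularForm MatrixGroups MeasureTheory CongruenceSubgroup
open scoped Modular Pointwise

/-- ADJ: `T_ℓ` is self-adjoint for mean values of the Petersson integrand over a fundamental
domain of `Γ(3Nℓ)`. -/
def Stmt_adj : Prop :=
  ∀ (N : ℕ) [NeZero N] (k : ℤ) (ℓ : ℕ) (hℓ : ℓ.Prime) (hℓN : ¬ ℓ ∣ N) (F : Set ℍ),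
    IsFD (GamR (3 * N * ℓ)) F → ∀ f g : CuspForm (Gamma0 N) k,
      mean F (petersson k (CuspForm.heckeTLin k hℓ hℓN f) g) =
        mean F (petersson k f (CuspForm.heckeTLin k hℓ hℓN g))

end Fermat.Agent.R.Pet
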