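import Fermat.Agent.R.Pet.Defs

/-!
# Pet, package PE (helper24): the double coset of the Hecke matrices

* `stmt_heckeMatrix_eq : Stmt_heckeMatrix_eq` : `[1, j; 0, ℓ] = [1, 0; 0, ℓ] * T ^ j`.
* `stmt_double_coset : Stmt_double_coset` : for `ℓ ∤ N` prime,
  `[ℓ, 0; 0, 1] = γ * [1, 0; 0, ℓ] * γ'` with `γ = [ℓ, b; N, d]`, `γ' = [d ℓ, -b; -N, 1]`,
  where `ℓ d - N b = 1`.
-/

set_option autoImplicit false

namespace Fermat.Agent.R.Pet.H24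

open ModularForm MatrixGroups CongruenceSubgroup Matrix

/-- The matrix of the image of `γ : SL(2, ℤ)` in `GL₂(ℝ)`. -/
theorem val_coe_SL (γ : SL(2, ℤ)) (i j : Fin 2) :
    ((γ : GL (Fin 2) ℝ) : Matrix (Fin 2) (Fin 2) ℝ) i j = ((γ.1 i j : ℤ) : ℝ) := by
  simp

theorem T_pow_val (j : ℕ) : (ModularGroup.T ^ j : SL(2, ℤ)).1 = !![1, (j : ℤ); 0, 1] := by
  rw [← zpow_natCast, ModularGroup.coe_T_zpow]

theorem stmt_heckeMatrix_eq : Stmt_heckeMatrix_eq := by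
  intro ℓ j hℓ
  apply Matrix.GeneralLinearGroup.ext
  intro a b
  rw [Matrix.GeneralLinearGroup.coe_mul, val_heckeMatrix hℓ, val_heckeMatrix hℓ, Matrix.mul_apply,
    Fin.sum_univ_two, val_coe_SL, val_coe_SL, T_pow_val]
  fin_cases a <;> fin_cases b <;> simp

/-- The two elements of `Γ₀(N)` for the double coset. -/
theorem exists_gamma0_pair (N ℓ : ℕ) (hℓ : ℓ.Prime) (hN : ¬ ℓ ∣ N) :
    ∃ b d : ℤ, (ℓ : ℤ) * d - (N : ℤ) * b = 1 := by
  have hcop : Nat.Coprime ℓ N := (Nat.Prime.coprime_iff_not_dvd hℓ).2 hN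
  have h := Nat.gcd_eq_gcd_ab ℓ N
  rw [hcop.gcd_eq_one] at h
  refine ⟨-(Nat.gcdB ℓ N), Nat.gcdA ℓ N, ?_⟩
  push_cast at h
  linarith

theorem stmt_double_coset : Stmt_double_coset := by
  intro N ℓ hℓ hN
  obtain ⟨b, d, hbd⟩ := exists_gamma0_pair N ℓ hℓ hN
  have hℓ0 : ℓ ≠ 0 := hℓ.ne_zero
  let γ : SL(2, ℤ) := ⟨!![(ℓ : ℤ), b; (N : ℤ), d], by rw [Matrix.det_fin_two_of]; linarith⟩
  let γ' : SL(2, ℤ) := ⟨!![d * (ℓ : ℤ), -b; -(N : ℤ), 1], by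
    rw [Matrix.det_fin_two_of]; linarith⟩
  refine ⟨γ, ?_, γ', ?_, ?_⟩
  · rw [Gamma0_mem]
    simp [γ]
  · rw [Gamma0_mem]
    simp [γ']
  · apply Matrix.GeneralLinearGroup.ext
    intro i j
    rw [Matrix.GeneralLinearGroup.coe_mul, Matrix.GeneralLinearGroup.coe_mul,
      val_heckeDiagMatrix hℓ0, val_heckeMatrix hℓ0, Matrix.mul_apply, Fin.sum_univ_two,
      Matrix.mul_apply, Matrix.mul_apply, Fin.sum_univ_two, Fin.sum_univ_two]
    simp only [val_coe_SL]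
    have hR : (ℓ : ℝ) * (d : ℝ) - (N : ℝ) * (b : ℝ) = 1 := by exact_mod_cast hbd
    fin_cases i <;> fin_cases j <;> simp [γ, γ']
    · linear_combination (-(ℓ : ℝ)) * hR
    · ring
    · ring
    · linear_combination (-1 : ℝ) * hR

end Fermat.Agent.R.Pet.H24
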