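import Fermat.Agent.R.Pet.Defs

/-!
# Pet, step PA (helper58): the boundary of the standard fundamental domain is a null set.
-/

set_option autoImplicit false

namespace Fermat.Agent.R.Pet

open UpperHalfPlane MeasureTheory
open scoped NNReal ENNReal Modular

lemma volume_re_eq (c : ℝ) : volume {w : ℂ | w.re = c} = 0 := by
  have h := Complex.volume_preserving_equiv_real_prod
  have : {w : ℂ | w.re = c} = Complex.measurableEquivRealProd ⁻¹' (({c} : Set ℝ) ×ˢ Set.univ) := by
    ext w
    simp [Complex.measurableEquivRealProd]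
  rw [this, h.measure_preimage (by measurability)]
  rw [Measure.volume_eq_prod, Measure.prod_prod]
  simp

/-- **PA**: the boundary of the standard fundamental domain is a null set. -/
theorem stmt_fd_boundary_null : Stmt_fd_boundary_null := by
  show volume ((𝒟 : Set ℍ) \ 𝒟ᵒ) = 0
  rw [volume_eq_lintegral]
  apply setLIntegral_measure_zero
  have hsub : ((↑) '' ((𝒟 : Set ℍ) \ 𝒟ᵒ) : Set ℂ) ⊆
      Metric.sphere (0 : ℂ) 1 ∪ ({w : ℂ | w.re = 1 / 2} ∪ {w : ℂ | w.re = -(1 / 2)}) := by
    rintro _ ⟨z, ⟨hz, hz'⟩, rfl⟩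
    simp only [ModularGroup.fd, ModularGroup.fdo, Set.mem_ofPred_eq, not_and, not_lt] at hz hz'
    by_cases h1 : 1 < Complex.normSq (z : ℂ)
    · right
      have h2 := hz' h1
      have h3 : |z.re| = 1 / 2 := le_antisymm hz.2 h2
      have h4 : (z : ℂ).re = z.re := rfl
      rcases abs_eq (by norm_num : (0 : ℝ) ≤ 1 / 2) |>.mp h3 with h | h
      · left; simpa [h4] using h
      · right; simpa [h4] using h
    · left
      have h2 : Complex.normSq (z : ℂ) = 1 := le_antisymm (not_lt.mp h1) hz.1
      rw [mem_sphere_zero_iff_norm]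
      rw [Complex.normSq_eq_norm_sq] at h2
      have h3 : (0 : ℝ) ≤ ‖(z : ℂ)‖ := norm_nonneg _
      nlinarith
  refine measure_mono_null hsub ?_
  rw [measure_union_null_iff, measure_union_null_iff]
  exact ⟨Measure.addHaar_sphere volume 0 1, volume_re_eq _, volume_re_eq _⟩

end Fermat.Agent.R.Pet
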