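import Fermat.Agent.R.Pet.Defs3
import Fermat.Agent.R.Pet.H58_PetA

/-!
# Pet (helper58): the Petersson pairing `B f g = mean F₀ (petersson k f g)` and `Stmt_pet`
from the work packages.
-/

set_option autoImplicit false
set_option linter.unusedSectionVars false

namespace Fermat.Agent.R.Pet

open UpperHalfPlane ModularForm MatrixGroups MeasureTheory CongruenceSubgroup
open scoped Modular Pointwise ComplexConjugate

lemma Gamma_le_Gamma0_of_dvd {N M : ℕ} (h : N ∣ M) : Gamma M ≤ Gamma0 N := by
  intro γ hγ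
  rw [Gamma_mem] at hγ
  rw [Gamma0_mem]
  have h1 : ((γ 1 0 : ℤ) : ZMod M) = 0 := hγ.2.2.1
  rw [ZMod.intCast_zmod_eq_zero_iff_dvd] at h1 ⊢
  exact (Int.natCast_dvd_natCast.mpr h).trans h1

lemma GamR_le_of_dvd {N M : ℕ} (h : N ∣ M) :
    GamR M ≤ (Gamma0 N).map (Matrix.SpecialLinearGroup.mapGL ℝ) :=
  Subgroup.map_mono (Gamma_le_Gamma0_of_dvd h)

section inv

variable {N : ℕ} [NeZero N] {k : ℤ}

/-- The Petersson integrand of two cusp forms of level `Γ₀(N)` is `Γ(M)`-invariant, `N ∣ M`. -/
lemma pet_invariant {M : ℕ} (h : N ∣ M) (f g : CuspForm (Gamma0 N) k) :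
    ∀ γ ∈ GamR M, ∀ z, petersson k f g (γ • z) = petersson k f g z := by
  intro γ hγ z
  exact SlashInvariantFormClass.petersson_smul (GamR_le_of_dvd h hγ)

lemma pet_continuous (f g : CuspForm (Gamma0 N) k) : Continuous (petersson k f g) :=
  petersson_continuous k (CuspFormClass.holo f).continuous (CuspFormClass.holo g).continuous

lemma pet_integrableOn {F : Set ℍ} (hF : volume F < ⊤) (f g : CuspForm (Gamma0 N) k) :
    IntegrableOn (petersson k f g) F volume :=
  integrableOn_of_bdd_cont hF (pet_continuous f g)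
    (PetBdd.pair (PetBdd.of_cuspForm f) (PetBdd.of_cuspForm g))

end inv

lemma countable_SL2Z : Countable SL(2, ℤ) :=
  haveI : Countable (Matrix (Fin 2) (Fin 2) ℤ) :=
    inferInstanceAs (Countable (Fin 2 → Fin 2 → ℤ))
  Function.Injective.countable (f := fun A : SL(2, ℤ) => (A : Matrix (Fin 2) (Fin 2) ℤ))
    Subtype.val_injective

lemma countable_GamR (M : ℕ) : Countable (GamR M) := by
  have := countable_SL2Z
  have h : ((GamR M : Subgroup (GL (Fin 2) ℝ)) : Set (GL (Fin 2) ℝ)).Countable := by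
    rw [GamR, Subgroup.coe_map]
    exact (Set.countable_range _).mono (Set.image_subset_range _ _)
  exact h.to_subtype

/-- **PET** from the work packages. -/
theorem stmt_pet_of (hPC : Stmt_open_pos) (hfd : Stmt_exists_fd_Gamma) (hlev : Stmt_mean_level)
    (hpos : Stmt_pos) (hadj : Stmt_adj) (N : ℕ) [NeZero N] (k : ℤ) : Stmt_pet N k := by
  have hN : 0 < N := NeZero.pos N
  obtain ⟨F₀, hF₀⟩ := hfd (3 * N) (by omega)
  refine ⟨fun f g => mean F₀ (petersson k f g), ?_, ?_, ?_, ?_⟩
  · intro f f' g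
    show mean F₀ (petersson k (⇑(f + f')) g) = _
    rw [FunLike.coe_add, pet_add_left]
    exact mean_add (pet_integrableOn hF₀.fin f g) (pet_integrableOn hF₀.fin f' g)
  · intro f g g'
    show mean F₀ (petersson k f (⇑(g + g'))) = _
    rw [FunLike.coe_add, pet_add_right]
    exact mean_add (pet_integrableOn hF₀.fin f g) (pet_integrableOn hF₀.fin f g')
  · intro f hf
    have hμ : (volume : Measure ℍ) ≠ 0 := by
      intro h
      have := hPC Set.univ isOpen_univ Set.univ_nonempty
      rw [h] at this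
      simp at this
    have := countable_GamR (3 * N)
    have hvol0 : volume F₀ ≠ 0 := hF₀.fd.measure_ne_zero hμ
    have hvolR : (((volume F₀).toReal : ℝ) : ℂ) ≠ 0 := by
      rw [Ne, Complex.ofReal_eq_zero, ENNReal.toReal_eq_zero_iff]
      rintro (h | h)
      · exact hvol0 h
      · exact hF₀.fin.ne h
    have hint : ∫ z in F₀, petersson k f f z = 0 := by
      rcases div_eq_zero_iff.mp hf with h | h
      · exact h
      · exact absurd h hvolR
    set Φ : ℍ → ℝ := fun τ => ‖f τ‖ ^ 2 * τ.im ^ k with hΦdef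
    have hΦ : ∀ τ, petersson k f f τ = ((Φ τ : ℝ) : ℂ) := pet_self k f
    have hintR : ∫ z in F₀, Φ z = 0 := by
      have h1 : ∫ z in F₀, petersson k f f z = (((∫ z in F₀, Φ z) : ℝ) : ℂ) := by
        have h2 : ∫ z in F₀, ((Φ z : ℝ) : ℂ) = (((∫ z in F₀, Φ z) : ℝ) : ℂ) := integral_ofReal
        rw [← h2]
        exact integral_congr_ae (Filter.Eventually.of_forall hΦ)
      rw [h1] at hint
      exact_mod_cast hint
    have hcont : Continuous Φ := by
      have hc : Continuous (fun τ => petersson k f f τ) := pet_continuous f f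
      have : Φ = fun τ => (petersson k f f τ).re := by
        funext τ
        rw [hΦ, Complex.ofReal_re]
      rw [this]
      exact Complex.continuous_re.comp hc
    have hnn : ∀ z, 0 ≤ Φ z := fun z =>
      mul_nonneg (sq_nonneg _) (zpow_nonneg z.im_pos.le k)
    have hinv : ∀ g ∈ GamR (3 * N), ∀ z, Φ (g • z) = Φ z := by
      intro g hg z
      have := pet_invariant (dvd_mul_left N 3) f f g hg z
      rw [hΦ, hΦ] at this
      exact_mod_cast this
    have hintg : IntegrableOn Φ F₀ volume := by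
      have h1 : IntegrableOn (petersson k f f) F₀ volume := pet_integrableOn hF₀.fin f f
      have h2 : IntegrableOn (fun τ => (petersson k f f τ).re) F₀ volume := h1.re
      have : Φ = fun τ => (petersson k f f τ).re := by
        funext τ
        rw [hΦ, Complex.ofReal_re]
      rw [this]
      exact h2
    have hΦ0 := hpos (GamR (3 * N)) (countable_GamR _) F₀ hF₀ Φ hcont hnn hinv hintg hintR
    ext τ
    have h0 := hΦ0 τ
    rw [hΦdef] at h0
    have him : τ.im ^ k ≠ 0 := zpow_ne_zero k τ.im_pos.ne'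
    have : ‖f τ‖ ^ 2 = 0 := by
      rcases mul_eq_zero.mp h0 with h | h
      · exact h
      · exact absurd h him
    have : ‖f τ‖ = 0 := by simpa using this
    simpa using this
  · intro ℓ hℓ hℓN f g
    have hℓ0 : 0 < ℓ := hℓ.pos
    obtain ⟨F', hF'⟩ := hfd (3 * N * ℓ) (by nlinarith)
    have h1 := hlev (3 * N) (3 * N * ℓ) (by positivity) (dvd_mul_right _ _) F₀ F' hF₀ hF'
      (petersson k (CuspForm.heckeTLin k hℓ hℓN f) g) (pet_invariant (dvd_mul_left N 3) _ _)
    have h2 := hlev (3 * N) (3 * N * ℓ) (by positivity) (dvd_mul_right _ _) F₀ F' hF₀ hF'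
      (petersson k f (CuspForm.heckeTLin k hℓ hℓN g)) (pet_invariant (dvd_mul_left N 3) _ _)
    show mean F₀ _ = mean F₀ _
    rw [← h1, ← h2]
    exact hadj N k ℓ hℓ hℓN F' hF' f g

/-- **L3a** from the work packages. -/
theorem stmt_L3a_of (hPC : Stmt_open_pos) (hfd : Stmt_exists_fd_Gamma) (hlev : Stmt_mean_level)
    (hpos : Stmt_pos) (hadj : Stmt_adj) (hred : Stmt_reduced_of_pet) : Stmt_L3a :=
  fun N _ k S hS => hred N k S hS (stmt_pet_of hPC hfd hlev hpos hadj N k)

end Fermat.Agent.R.Pet
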