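import Fermat.Agent.R.Leaves
import Fermat.Agent.R.Pet.H58_PetB
import Fermat.Agent.R.Pet.H58_Reduced
import Fermat.Agent.R.Pet.H78_FD
import Fermat.Agent.R.Pet.H22_Conj
import Fermat.Agent.R.Pet.H24_Pos
import Fermat.Agent.R.Pet.H98_FD1
import Fermat.Agent.R.Pet.H98_Adj

/-!
# Pet (cluster R, leaf L3a): final assembly (helper98)

`stmt_L3a : Stmt_L3a` — the Hecke algebra generated by the `T_ℓ`, `ℓ ∤ N`, acting on
`S_k(Γ₀(N))` is reduced (all weights), and `stmt_HeckeReduced : R.Stmt_HeckeReduced` (weight 2).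
Assembled from the packages of helper58 (PF, PET), helper78 (PA, PB, PC), helper22 (PE, CONJ),
helper24 (POS, MEAN-SL, MEAN-LEVEL) and helper98 (PD, MEAN, FD1, ADJ).
-/

set_option autoImplicit false

namespace Fermat.Agent.R.Pet.H98

theorem stmt_exists_fd : Stmt_exists_fd :=
  stmt_exists_fd_of H78.fd_boundary_null H78.fd_volume_lt_top

theorem stmt_adj : Stmt_adj :=
  stmt_adj_of H24.stmt_mean_SL H22.stmt_comm0 H22.stmt_conj0 H22.stmt_conjInf

theorem stmt_pet (N : ℕ) [NeZero N] (k : ℤ) : Stmt_pet N k :=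
  stmt_pet_of H78.open_pos (H22.stmt_exists_fd_Gamma stmt_exists_fd) H24.stmt_mean_level
    (H24.stmt_pos H78.open_pos) stmt_adj N k

/-- **L3a**: the anemic Hecke algebra of `S_k(Γ₀(N))` is reduced. -/
theorem stmt_L3a : Stmt_L3a :=
  stmt_L3a_of H78.open_pos (H22.stmt_exists_fd_Gamma stmt_exists_fd) H24.stmt_mean_level
    (H24.stmt_pos H78.open_pos) stmt_adj reduced_of_pet

/-- **L3a** in the shape of cluster R (weight 2). -/
theorem stmt_HeckeReduced : Fermat.Agent.R.Stmt_HeckeReduced :=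
  fun N _ S hS => stmt_L3a N 2 S hS

/-- Unfolded form. -/
theorem isReduced_heckeAlgebra (N : ℕ) [NeZero N] (k : ℤ) (S : Set ℕ)
    (hS : ∀ q : ℕ, q.Prime → q ∣ N → q ∈ S) : IsReduced (CuspForm.heckeAlgebra N k S) :=
  stmt_L3a N k S hS

end Fermat.Agent.R.Pet.H98
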